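/-
S14 long shot, second inequality, brick (2I-g) (helper2).
Generic lemma: sums over the fibres of a map with fibres of bounded cardinality.
-/
import Mathlib

set_option autoImplicit false

namespace Fermat.Agent.ExtVan.SecondIneq

open Finset

variable {α β : Type*}

/-- If `u : α → β` has fibres of cardinality at most `n` (tested on finite sets), `g a ≤ h (u a)`
with `h ≥ 0` summable, then every finite partial sum of `g` is at most `n * ∑' h`. -/
theorem sum_le_mul_tsum_of_fiber_card_le [DecidableEq β] (u : α → β) (n : ℕ)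
    (hfib : ∀ (S : Finset α) (b : β), #{a ∈ S | u a = b} ≤ n)
    (g : α → ℝ) (h : β → ℝ) (hh0 : ∀ b, 0 ≤ h b) (hh : Summable h)
    (hgh : ∀ a, g a ≤ h (u a)) (S : Finset α) :
    ∑ a ∈ S, g a ≤ n * ∑' b, h b := by
  calc ∑ a ∈ S, g a ≤ ∑ a ∈ S, h (u a) := Finset.sum_le_sum fun a _ => hgh a
    _ = ∑ b ∈ S.image u, #{a ∈ S | u a = b} • h b := Finset.sum_comp h u
    _ ≤ ∑ b ∈ S.image u, (n : ℝ) * h b := by
        refine Finset.sum_le_sum fun b _ => ?_
        rw [nsmul_eq_mul]
        exact mul_le_mul_of_nonneg_right (by exact_mod_cast hfib S b) (hh0 b)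
    _ = n * ∑ b ∈ S.image u, h b := by rw [Finset.mul_sum]
    _ ≤ n * ∑' b, h b :=
        mul_le_mul_of_nonneg_left (hh.sum_le_tsum _ fun b _ => hh0 b) (Nat.cast_nonneg n)

/-- Summability and the bound on the total sum, in the situation of
`sum_le_mul_tsum_of_fiber_card_le`. -/
theorem summable_and_tsum_le_of_fiber_card_le [DecidableEq β] (u : α → β) (n : ℕ)
    (hfib : ∀ (S : Finset α) (b : β), #{a ∈ S | u a = b} ≤ n)
    (g : α → ℝ) (hg0 : ∀ a, 0 ≤ g a) (h : β → ℝ) (hh0 : ∀ b, 0 ≤ h b) (hh : Summable h)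
    (hgh : ∀ a, g a ≤ h (u a)) :
    Summable g ∧ ∑' a, g a ≤ n * ∑' b, h b := by
  have hS := sum_le_mul_tsum_of_fiber_card_le u n hfib g h hh0 hh hgh
  have hsum : Summable g := summable_of_sum_le hg0 hS
  exact ⟨hsum, hsum.tsum_le_of_sum_le hS⟩

end Fermat.Agent.ExtVan.SecondIneq
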