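/-
S14 long shot, second inequality, brick (2I-g) (helper2).

For an extension `L/F` of number fields, the primes `q` of `F` that are the relative norm of a prime
of `L` (`degOneBelow F L`) carry, up to a bounded error, at least the fraction `1/[L:F]` of the mass
`∑ N P ^ (-s)` of all primes of `L`, uniformly for `s ∈ (1, 2]`:

  `∑_{P} N P ^ (-s) ≤ [L:F] * (∑_{q ∈ degOneBelow} N q ^ (-s) + ∑_q N q ^ (-2))`.

No Galois hypothesis is needed: at most `[L:F]` primes lie over `q`, and a prime `P` of relative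
degree `f ≥ 2` has `N P = N q ^ f ≥ N q ^ 2`.
-/
import Mathlib
import Fermat.Agent.ExtVan.SecondIneq.FiberSum

set_option autoImplicit false
set_option linter.style.haveILetI false
set_option linter.deprecated false

noncomputable section

namespace Fermat.Agent.ExtVan.SecondIneq

open NumberField IsDedekindDomain Ideal Finset

section Generic

variable {A B : Type*} [CommRing A] [IsDedekindDomain A] [CommRing B] [IsDedekindDomain B]
  [Algebra A B] [Module.Finite A B] [NoZeroSMulDivisors A B]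
  (K L : Type*) [Field K] [Field L] [Algebra A K] [IsFractionRing A K] [Algebra B L]
  [IsFractionRing B L] [Algebra K L] [Algebra A L] [IsScalarTower A B L] [IsScalarTower A K L]

open Classical in
/-- at most `[L:K]` height one primes of `B` lie over a given height one prime of `A`. -/
theorem card_filter_under_le (S : Finset (HeightOneSpectrum B)) (q : HeightOneSpectrum A) :
    #{P ∈ S | P.under A = q} ≤ Module.finrank K L := by
  have hq0 : q.asIdeal ≠ ⊥ := q.ne_bot
  haveI : q.asIdeal.IsMaximal := q.isMaximal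
  refine le_trans ?_ (Ideal.card_primesOverFinset_le_finrank B K L hq0)
  refine Finset.card_le_card_of_injOn (fun P => P.asIdeal) ?_ ?_
  · intro P hP
    simp only [Finset.coe_filter, Set.mem_setOf_eq] at hP
    rw [Finset.mem_coe, IsDedekindDomain.mem_primesOverFinset_iff hq0]
    refine ⟨P.isPrime, ⟨?_⟩⟩
    rw [← hP.2]
    rfl
  · intro P _ Q _ h
    exact HeightOneSpectrum.ext h

end Generic

/-- the absolute norm of a height one prime, as a real number. -/
abbrev primeNorm {K : Type*} [Field K] [NumberField K] (q : HeightOneSpectrum (𝓞 K)) : ℝ :=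
  ((Ideal.absNorm q.asIdeal : ℕ) : ℝ)

section PrimeNorm

variable {K : Type*} [Field K] [NumberField K]

lemma one_lt_absNorm (q : HeightOneSpectrum (𝓞 K)) : 1 < Ideal.absNorm q.asIdeal := by
  have h0 : Ideal.absNorm q.asIdeal ≠ 0 := by
    rw [Ne, Ideal.absNorm_eq_zero_iff]
    exact q.ne_bot
  have h1 : Ideal.absNorm q.asIdeal ≠ 1 := by
    rw [Ne, Ideal.absNorm_eq_one_iff]
    exact q.isPrime.ne_top
  omega

lemma one_lt_primeNorm (q : HeightOneSpectrum (𝓞 K)) : 1 < primeNorm q := by
  have := one_lt_absNorm q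
  unfold primeNorm
  exact_mod_cast this

lemma primeNorm_pos (q : HeightOneSpectrum (𝓞 K)) : 0 < primeNorm q :=
  lt_trans zero_lt_one (one_lt_primeNorm q)

lemma primeNorm_rpow_nonneg (q : HeightOneSpectrum (𝓞 K)) (s : ℝ) : 0 ≤ primeNorm q ^ s :=
  Real.rpow_nonneg (primeNorm_pos q).le s

end PrimeNorm

section Summable

lemma absNorm_prime_int (v : HeightOneSpectrum ℤ) : (Ideal.absNorm v.asIdeal).Prime := by
  have h0 : ((Ideal.absNorm v.asIdeal : ℕ) : ℤ) ≠ 0 := by
    rw [Ne, Int.natCast_eq_zero, Ideal.absNorm_eq_zero_iff]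
    exact v.ne_bot
  rw [Nat.prime_iff_prime_int, ← Ideal.span_singleton_prime h0, Int.ideal_span_absNorm_eq_self]
  exact v.isPrime

/-- the injection of the primes of `ℤ` into the prime numbers. -/
def intPrimeToNat (v : HeightOneSpectrum ℤ) : Nat.Primes :=
  ⟨Ideal.absNorm v.asIdeal, absNorm_prime_int v⟩

lemma intPrimeToNat_coe (v : HeightOneSpectrum ℤ) :
    ((intPrimeToNat v : Nat.Primes) : ℕ) = Ideal.absNorm v.asIdeal := rfl

lemma intPrimeToNat_injective : Function.Injective intPrimeToNat := by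
  intro v w h
  have h' : Ideal.absNorm v.asIdeal = Ideal.absNorm w.asIdeal := by
    have := congrArg (fun p : Nat.Primes => (p : ℕ)) h
    exact this
  apply HeightOneSpectrum.ext
  have hv := Int.ideal_span_absNorm_eq_self v.asIdeal
  have hw := Int.ideal_span_absNorm_eq_self w.asIdeal
  rw [← hv, ← hw, h']

lemma summable_intPrime_rpow {s : ℝ} (hs : 1 < s) :
    Summable fun v : HeightOneSpectrum ℤ => ((Ideal.absNorm v.asIdeal : ℕ) : ℝ) ^ (-s) := by
  have h : Summable fun p : Nat.Primes => ((p : ℕ) : ℝ) ^ (-s) :=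
    Nat.Primes.summable_rpow.mpr (by linarith)
  have h2 := h.comp_injective intPrimeToNat_injective
  refine h2.congr fun v => ?_
  simp only [Function.comp_apply, intPrimeToNat_coe]

variable (K : Type*) [Field K] [NumberField K]

open Classical in
/-- **summability over primes**: `∑_q N q ^ (-s)` converges for `s > 1`, and is at most
`[K:ℚ] * ∑_p p ^ (-s)`. -/
theorem summable_primeNorm_rpow {s : ℝ} (hs : 1 < s) :
    Summable fun q : HeightOneSpectrum (𝓞 K) => primeNorm q ^ (-s) := by
  refine (summable_and_tsum_le_of_fiber_card_le (fun q : HeightOneSpectrum (𝓞 K) => q.under ℤ)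
    (Module.finrank ℚ K) (fun S v => card_filter_under_le ℚ K S v)
    (fun q => primeNorm q ^ (-s)) (fun q => primeNorm_rpow_nonneg q _)
    (fun v : HeightOneSpectrum ℤ => ((Ideal.absNorm v.asIdeal : ℕ) : ℝ) ^ (-s))
    (fun v => Real.rpow_nonneg (Nat.cast_nonneg _) _) (summable_intPrime_rpow hs) ?_).1
  intro q
  have hdvd : Ideal.absNorm (Ideal.under ℤ q.asIdeal) ∣ Ideal.absNorm q.asIdeal :=
    Int.absNorm_under_dvd_absNorm q.asIdeal
  have hle : Ideal.absNorm (Ideal.under ℤ q.asIdeal) ≤ Ideal.absNorm q.asIdeal :=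
    Nat.le_of_dvd (lt_trans zero_lt_one (one_lt_absNorm q)) hdvd
  have hpos : 0 < Ideal.absNorm (Ideal.under ℤ q.asIdeal) := by
    haveI := q.isPrime
    haveI : NeZero q.asIdeal := ⟨q.ne_bot⟩
    exact (Nat.absNorm_under_prime q.asIdeal).pos
  show primeNorm q ^ (-s) ≤ ((Ideal.absNorm (Ideal.under ℤ q.asIdeal) : ℕ) : ℝ) ^ (-s)
  exact Real.rpow_le_rpow_of_nonpos (by exact_mod_cast hpos) (by exact_mod_cast hle)
    (by linarith)

end Summable

section RelNorm

variable (F L : Type*) [Field F] [NumberField F] [Field L] [NumberField L] [Algebra F L]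

/-- the primes of `F` that are the relative norm of a prime of `L` (i.e. have a prime of relative
degree one above them). -/
def degOneBelow : Set (HeightOneSpectrum (𝓞 F)) :=
  {q | ∃ P : HeightOneSpectrum (𝓞 L), Ideal.relNorm (𝓞 F) P.asIdeal = q.asIdeal}

variable {F L} in
/-- the relative norm of a prime `P` of `L` is a power `q ^ f`, `f ≥ 1`, of the prime below. -/
lemma exists_relNorm_eq_pow (P : HeightOneSpectrum (𝓞 L)) :
    ∃ f : ℕ, 1 ≤ f ∧ Ideal.relNorm (𝓞 F) P.asIdeal = (P.under (𝓞 F)).asIdeal ^ f := by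
  haveI : P.asIdeal.IsMaximal := P.isMaximal
  haveI : (P.under (𝓞 F)).asIdeal.IsMaximal := (P.under (𝓞 F)).isMaximal
  haveI : P.asIdeal.LiesOver (P.under (𝓞 F)).asIdeal := ⟨rfl⟩
  exact ⟨P.asIdeal.inertiaDeg (𝓞 F), Ideal.inertiaDeg_pos P.asIdeal (𝓞 F),
    Ideal.relNorm_eq_pow_of_isMaximal P.asIdeal (P.under (𝓞 F)).asIdeal⟩

variable {F L} in
lemma primeNorm_eq_pow (P : HeightOneSpectrum (𝓞 L)) {f : ℕ}
    (hf : Ideal.relNorm (𝓞 F) P.asIdeal = (P.under (𝓞 F)).asIdeal ^ f) :
    primeNorm P = primeNorm (P.under (𝓞 F)) ^ f := by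
  unfold primeNorm
  rw [← Ideal.absNorm_relNorm (𝓞 F) (𝓞 L) P.asIdeal, hf, map_pow, Nat.cast_pow]

variable {F L} in
/-- the key pointwise bound. -/
lemma primeNorm_rpow_le (P : HeightOneSpectrum (𝓞 L)) {s : ℝ} (hs : 1 ≤ s) :
    primeNorm P ^ (-s) ≤
      (degOneBelow F L).indicator (fun q => primeNorm q ^ (-s)) (P.under (𝓞 F)) +
        primeNorm (P.under (𝓞 F)) ^ (-(2 : ℝ)) := by
  obtain ⟨f, hf1, hf⟩ := exists_relNorm_eq_pow (F := F) P
  have hN := primeNorm_eq_pow P hf
  set q := P.under (𝓞 F) with hq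
  have hq1 : 1 < primeNorm q := one_lt_primeNorm q
  rcases Nat.lt_or_ge f 2 with h2 | h2
  · have hf' : f = 1 := by omega
    subst hf'
    rw [pow_one] at hf hN
    have hmem : q ∈ degOneBelow F L := ⟨P, hf⟩
    rw [Set.indicator_of_mem hmem, hN]
    exact le_add_of_nonneg_right (primeNorm_rpow_nonneg q _)
  · have h1 : primeNorm q ^ (2 : ℕ) ≤ primeNorm P := by
      rw [hN]
      exact pow_le_pow_right₀ hq1.le h2
    have h2' : primeNorm P ^ (-s) ≤ (primeNorm q ^ (2 : ℕ)) ^ (-s) :=
      Real.rpow_le_rpow_of_nonpos (by positivity) h1 (by linarith)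
    have h3 : (primeNorm q ^ (2 : ℕ)) ^ (-s) = primeNorm q ^ (-(2 * s)) := by
      rw [← Real.rpow_natCast, ← Real.rpow_mul (primeNorm_pos q).le]
      congr 1
      push_cast
      ring
    have h4 : primeNorm q ^ (-(2 * s)) ≤ primeNorm q ^ (-(2 : ℝ)) :=
      Real.rpow_le_rpow_of_exponent_le hq1.le (by linarith)
    calc primeNorm P ^ (-s) ≤ primeNorm q ^ (-(2 : ℝ)) := by
          rw [h3] at h2'
          exact h2'.trans h4
      _ ≤ _ := le_add_of_nonneg_left (Set.indicator_nonneg (fun q _ => primeNorm_rpow_nonneg q _) _)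

/-- the constant `∑_q N q ^ (-2)`. -/
def primeZetaTwo : ℝ := ∑' q : HeightOneSpectrum (𝓞 F), primeNorm q ^ (-(2 : ℝ))

open Classical in
/-- **(2I-g), main inequality**: the total mass of the primes of `L` is at most `[L:F]` times the
mass of the primes of `F` that are norms of primes, up to the constant `[L:F] * ∑_q N q ^ (-2)`. -/
theorem tsum_primeNorm_le {s : ℝ} (hs : 1 < s) :
    ∑' P : HeightOneSpectrum (𝓞 L), primeNorm P ^ (-s) ≤
      (Module.finrank F L : ℝ) *
        (∑' q : degOneBelow F L, primeNorm q.1 ^ (-s) + primeZetaTwo F) := by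
  have hsumF : Summable fun q : HeightOneSpectrum (𝓞 F) => primeNorm q ^ (-s) :=
    summable_primeNorm_rpow F hs
  have hsumF2 : Summable fun q : HeightOneSpectrum (𝓞 F) => primeNorm q ^ (-(2 : ℝ)) :=
    summable_primeNorm_rpow F (by norm_num)
  have hind : Summable ((degOneBelow F L).indicator fun q => primeNorm q ^ (-s)) :=
    hsumF.indicator _
  haveI : NoZeroSMulDivisors (𝓞 F) (𝓞 L) := ⟨fun {c x} h => by
    rw [Algebra.smul_def] at h
    rcases mul_eq_zero.mp h with h | h
    · left
      exact (FaithfulSMul.algebraMap_injective (𝓞 F) (𝓞 L)) (by rw [h, map_zero])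
    · right
      exact h⟩
  have h := summable_and_tsum_le_of_fiber_card_le
    (fun P : HeightOneSpectrum (𝓞 L) => P.under (𝓞 F)) (Module.finrank F L)
    (fun S q => card_filter_under_le F L S q)
    (fun P => primeNorm P ^ (-s)) (fun P => primeNorm_rpow_nonneg P _)
    (fun q => (degOneBelow F L).indicator (fun q => primeNorm q ^ (-s)) q +
      primeNorm q ^ (-(2 : ℝ)))
    (fun q => add_nonneg (Set.indicator_nonneg (fun q _ => primeNorm_rpow_nonneg q _) _)
      (primeNorm_rpow_nonneg q _))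
    (hind.add hsumF2) (fun P => primeNorm_rpow_le P hs.le)
  refine h.2.trans (le_of_eq ?_)
  rw [hind.tsum_add hsumF2, tsum_subtype (degOneBelow F L) fun q => primeNorm q ^ (-s)]
  rfl

/-- **(2I-g)**: if the primes of `L` have mass `≥ log (1/(s-1)) - B`, the primes of `F` that are
norms of primes of `L` have mass `≥ (1/[L:F]) log (1/(s-1)) - B'`. -/
theorem exists_bound_degOneBelow
    (hL : ∃ B : ℝ, ∀ s ∈ Set.Ioc (1 : ℝ) 2,
      Real.log (1 / (s - 1)) - B ≤ ∑' P : HeightOneSpectrum (𝓞 L), primeNorm P ^ (-s)) :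
    ∃ B : ℝ, ∀ s ∈ Set.Ioc (1 : ℝ) 2,
      (1 / (Module.finrank F L : ℝ)) * Real.log (1 / (s - 1)) - B ≤
        ∑' q : degOneBelow F L, primeNorm q.1 ^ (-s) := by
  obtain ⟨B, hB⟩ := hL
  have hn : 0 < (Module.finrank F L : ℝ) := by
    exact_mod_cast Module.finrank_pos (R := F) (M := L)
  refine ⟨B / (Module.finrank F L : ℝ) + primeZetaTwo F, fun s hs => ?_⟩
  have h1 := hB s hs
  have h2 := tsum_primeNorm_le F L hs.1
  have h3 : Real.log (1 / (s - 1)) - B ≤ (Module.finrank F L : ℝ) *
      (∑' q : degOneBelow F L, primeNorm q.1 ^ (-s) + primeZetaTwo F) := h1.trans h2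
  have h4 : (Real.log (1 / (s - 1)) - B) / (Module.finrank F L : ℝ) ≤
      ∑' q : degOneBelow F L, primeNorm q.1 ^ (-s) + primeZetaTwo F := by
    rw [div_le_iff₀ hn, mul_comm]
    exact h3
  have h5 : (1 / (Module.finrank F L : ℝ)) * Real.log (1 / (s - 1)) - B / (Module.finrank F L : ℝ) =
      (Real.log (1 / (s - 1)) - B) / (Module.finrank F L : ℝ) := by ring
  linarith

end RelNorm

end Fermat.Agent.ExtVan.SecondIneq
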