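import Mathlib

/-!
# Euler products over a free commutative monoid (S14 long shot, second inequality, brick 2I-e)

For `y : ι → 𝕜` with `‖y v‖ < 1`, the weight `wt y e = ∏_v y_v ^ e_v` of an exponent vector
`e : ι →₀ ℕ` satisfies `∑_{supp e ⊆ S} wt y e = ∏_{v ∈ S} (1 - y v)⁻¹` for finite `S`, and if
the total family is norm-summable, `∑' e, wt y e` is the limit of these finite products.
-/

set_option autoImplicit false

noncomputable section

open Finset Filter Topology

namespace Fermat.Agent.ExtVan.SecondIneq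

variable {ι : Type*} {𝕜 : Type*} [NormedField 𝕜]

/-- the weight of an exponent vector. -/
def wt (y : ι → 𝕜) (e : ι →₀ ℕ) : 𝕜 := e.prod fun v k => y v ^ k

lemma wt_zero (y : ι → 𝕜) : wt y 0 = 1 := Finsupp.prod_zero_index

lemma wt_add (y : ι → 𝕜) (e e' : ι →₀ ℕ) : wt y (e + e') = wt y e * wt y e' := by
  classical
  exact Finsupp.prod_add_index' (fun _ => pow_zero _) (fun _ _ _ => pow_add _ _ _)

lemma wt_single (y : ι → 𝕜) (v : ι) (k : ℕ) : wt y (Finsupp.single v k) = y v ^ k :=
  Finsupp.prod_single_index (pow_zero _)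

lemma norm_wt (y : ι → 𝕜) (e : ι →₀ ℕ) : ‖wt y e‖ = wt (fun v => ‖y v‖) e := by
  unfold wt Finsupp.prod
  rw [norm_prod]
  exact Finset.prod_congr rfl fun v _ => norm_pow _ _

section Equiv

variable [DecidableEq ι]

/-- exponent vectors supported in `insert v S` are pairs (exponent at `v`, vector supported
in `S`). -/
def insertEquiv {S : Finset ι} {v : ι} (hv : v ∉ S) :
    ℕ × {e : ι →₀ ℕ // e.support ⊆ S} ≃ {e : ι →₀ ℕ // e.support ⊆ insert v S} where
  toFun p := ⟨Finsupp.single v p.1 + p.2.1, by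
    refine Finsupp.support_add.trans ?_
    apply Finset.union_subset
    · exact Finsupp.support_single_subset.trans (by simp)
    · exact p.2.2.trans (Finset.subset_insert _ _)⟩
  invFun e := (e.1 v, ⟨e.1.erase v, by
    rw [Finsupp.support_erase]
    intro w hw
    rw [Finset.mem_erase] at hw
    have := e.2 hw.2
    rw [Finset.mem_insert] at this
    rcases this with h | h
    · exact absurd h hw.1
    · exact h⟩)
  left_inv p := by
    obtain ⟨k, e, he⟩ := p
    have hev : e v = 0 := by
      rw [← Finsupp.notMem_support_iff]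
      exact fun h => hv (he h)
    ext1
    · simp [hev]
    · ext1
      simp only
      rw [Finsupp.erase_add, Finsupp.erase_single, zero_add, Finsupp.erase_of_notMem_support]
      exact fun h => hv (he h)
  right_inv e := by
    ext1
    simp only
    exact Finsupp.single_add_erase v e.1

lemma wt_insertEquiv (y : ι → 𝕜) {S : Finset ι} {v : ι} (hv : v ∉ S)
    (p : ℕ × {e : ι →₀ ℕ // e.support ⊆ S}) :
    wt y (insertEquiv hv p : ι →₀ ℕ) = y v ^ p.1 * wt y p.2.1 := by
  show wt y (Finsupp.single v p.1 + p.2.1) = _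
  rw [wt_add, wt_single]

end Equiv

variable [CompleteSpace 𝕜]

/-- **Finite Euler product**: the sum of the weights over exponent vectors supported in a finite
set `S` is `∏_{v ∈ S} (1 - y v)⁻¹`. -/
theorem hasSum_wt_support_subset (y : ι → 𝕜) (hy : ∀ v, ‖y v‖ < 1) (S : Finset ι) :
    HasSum (fun e : {e : ι →₀ ℕ // e.support ⊆ S} => wt y e.1) (∏ v ∈ S, (1 - y v)⁻¹) ∧
      Summable (fun e : {e : ι →₀ ℕ // e.support ⊆ S} => ‖wt y e.1‖) := by
  classical
  induction S using Finset.induction_on with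
  | empty =>
    have huniq : ∀ e : {e : ι →₀ ℕ // e.support ⊆ (∅ : Finset ι)}, e = ⟨0, by simp⟩ := by
      intro e
      ext1
      have := e.2
      rw [Finset.subset_empty, Finsupp.support_eq_empty] at this
      exact this
    haveI : Unique {e : ι →₀ ℕ // e.support ⊆ (∅ : Finset ι)} :=
      ⟨⟨⟨0, by simp⟩⟩, huniq⟩
    refine ⟨?_, (hasSum_unique _).summable⟩
    have h := hasSum_unique (fun e : {e : ι →₀ ℕ // e.support ⊆ (∅ : Finset ι)} => wt y e.1)
    have h2 : wt y (default : {e : ι →₀ ℕ // e.support ⊆ (∅ : Finset ι)}).1 = 1 := by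
      rw [huniq default]
      exact wt_zero y
    rw [h2] at h
    simpa using h
  | insert v S hv ih =>
    obtain ⟨ih1, ih2⟩ := ih
    have hg : HasSum (fun k : ℕ => y v ^ k) (1 - y v)⁻¹ := hasSum_geometric_of_norm_lt_one (hy v)
    have hgn : Summable fun k : ℕ => ‖y v ^ k‖ := by
      simp_rw [norm_pow]
      exact summable_geometric_of_lt_one (norm_nonneg _) (hy v)
    have hprodn : Summable fun p : ℕ × {e : ι →₀ ℕ // e.support ⊆ S} =>
        ‖y v ^ p.1 * wt y p.2.1‖ := by
      have := Summable.mul_norm hgn ih2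
      exact this
    have hprod : HasSum (fun p : ℕ × {e : ι →₀ ℕ // e.support ⊆ S} => y v ^ p.1 * wt y p.2.1)
        ((1 - y v)⁻¹ * ∏ w ∈ S, (1 - y w)⁻¹) := hg.mul ih1 hprodn.of_norm
    constructor
    · rw [Finset.prod_insert hv]
      refine (insertEquiv hv).hasSum_iff.mp ?_
      convert hprod using 1
      ext p
      exact wt_insertEquiv y hv p
    · refine (insertEquiv hv).summable_iff.mp ?_
      convert hprodn using 1
      ext p
      show ‖wt y (insertEquiv hv p : ι →₀ ℕ)‖ = _
      rw [wt_insertEquiv y hv p]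

/-- the finite Euler product as a `tsum`. -/
theorem tsum_wt_support_subset (y : ι → 𝕜) (hy : ∀ v, ‖y v‖ < 1) (S : Finset ι) :
    ∑' e : {e : ι →₀ ℕ // e.support ⊆ S}, wt y e.1 = ∏ v ∈ S, (1 - y v)⁻¹ :=
  (hasSum_wt_support_subset y hy S).1.tsum_eq

/-- **Euler product**: if the weights are norm-summable, their sum is the limit of the finite
Euler products. -/
theorem tendsto_prod_one_sub_inv (y : ι → 𝕜) (hy : ∀ v, ‖y v‖ < 1)
    (hsum : Summable fun e : ι →₀ ℕ => ‖wt y e‖) :
    Tendsto (fun S : Finset ι => ∏ v ∈ S, (1 - y v)⁻¹) atTop (𝓝 (∑' e : ι →₀ ℕ, wt y e)) := by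
  classical
  have key : ∀ S : Finset ι, ∏ v ∈ S, (1 - y v)⁻¹ =
      ∑' e : ι →₀ ℕ, (if e.support ⊆ S then wt y e else 0) := by
    intro S
    rw [← tsum_wt_support_subset y hy S]
    have := tsum_subtype {e : ι →₀ ℕ | e.support ⊆ S} (wt y)
    rw [show (∑' e : {e : ι →₀ ℕ // e.support ⊆ S}, wt y e.1) =
      ∑' e : ({e : ι →₀ ℕ | e.support ⊆ S} : Set (ι →₀ ℕ)), wt y e.1 from rfl, this]
    refine tsum_congr fun e => ?_
    rw [Set.indicator_apply]
    rfl
  simp_rw [key]
  refine tendsto_tsum_of_dominated_convergence (bound := fun e => ‖wt y e‖) hsum ?_ ?_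
  · intro e
    refine tendsto_const_nhds.congr' ?_
    filter_upwards [Filter.eventually_ge_atTop e.support] with S hS
    rw [if_pos hS]
  · refine Filter.Eventually.of_forall fun S e => ?_
    split_ifs
    · exact le_rfl
    · rw [norm_zero]; exact norm_nonneg _

end Fermat.Agent.ExtVan.SecondIneq
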