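import Mathlib

/-!
# Nonzero ideals of a Dedekind domain as exponent vectors (S14 long shot, brick 2I-e)

`toIdeal e = ∏_v v ^ e_v` is a bijection from `HeightOneSpectrum R →₀ ℕ` onto the nonzero ideals,
and turns addition into multiplication.
-/

set_option autoImplicit false

noncomputable section

open IsDedekindDomain nonZeroDivisors

namespace Fermat.Agent.ExtVan.SecondIneq

variable {R : Type*} [CommRing R] [IsDedekindDomain R]

/-- the ideal attached to an exponent vector. -/
def toIdeal (e : HeightOneSpectrum R →₀ ℕ) : Ideal R := e.prod fun v k => v.asIdeal ^ k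

lemma toIdeal_zero : toIdeal (0 : HeightOneSpectrum R →₀ ℕ) = 1 := Finsupp.prod_zero_index

lemma toIdeal_add (e e' : HeightOneSpectrum R →₀ ℕ) :
    toIdeal (e + e') = toIdeal e * toIdeal e' := by
  classical
  exact Finsupp.prod_add_index' (fun _ => pow_zero _) (fun _ _ _ => pow_add _ _ _)

lemma toIdeal_single (v : HeightOneSpectrum R) (k : ℕ) :
    toIdeal (Finsupp.single v k) = v.asIdeal ^ k :=
  Finsupp.prod_single_index (pow_zero _)

lemma toIdeal_ne_zero (e : HeightOneSpectrum R →₀ ℕ) : toIdeal e ≠ 0 := by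
  unfold toIdeal Finsupp.prod
  rw [Finset.prod_ne_zero_iff]
  intro v _
  exact pow_ne_zero _ v.ne_bot

lemma toIdeal_mem_nonZeroDivisors (e : HeightOneSpectrum R →₀ ℕ) : toIdeal e ∈ (Ideal R)⁰ :=
  mem_nonZeroDivisors_of_ne_zero (toIdeal_ne_zero e)

/-- `toIdeal` as a map to nonzero ideals. -/
def toIdeal₀ (e : HeightOneSpectrum R →₀ ℕ) : (Ideal R)⁰ := ⟨toIdeal e, toIdeal_mem_nonZeroDivisors e⟩

lemma toIdeal₀_zero : toIdeal₀ (0 : HeightOneSpectrum R →₀ ℕ) = 1 :=
  Subtype.ext toIdeal_zero

lemma toIdeal₀_add (e e' : HeightOneSpectrum R →₀ ℕ) :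
    toIdeal₀ (e + e') = toIdeal₀ e * toIdeal₀ e' :=
  Subtype.ext (toIdeal_add e e')

/-- a prime as a nonzero ideal. -/
def prime₀ (v : HeightOneSpectrum R) : (Ideal R)⁰ :=
  ⟨v.asIdeal, mem_nonZeroDivisors_of_ne_zero v.ne_bot⟩

lemma toIdeal₀_single (v : HeightOneSpectrum R) (k : ℕ) :
    toIdeal₀ (Finsupp.single v k) = prime₀ v ^ k :=
  Subtype.ext (by rw [SubmonoidClass.coe_pow]; exact toIdeal_single v k)

/-- a monoid hom on nonzero ideals is determined on `toIdeal₀ e` by its values on primes. -/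
lemma map_toIdeal₀ {M : Type*} [CommMonoid M] (φ : (Ideal R)⁰ →* M)
    (e : HeightOneSpectrum R →₀ ℕ) :
    φ (toIdeal₀ e) = e.prod fun v k => φ (prime₀ v) ^ k := by
  classical
  induction e using Finsupp.induction_linear with
  | zero => rw [toIdeal₀_zero, map_one, Finsupp.prod_zero_index]
  | add e e' he he' =>
    rw [toIdeal₀_add, map_mul, he, he',
      Finsupp.prod_add_index' (fun _ => pow_zero _) (fun _ _ _ => pow_add _ _ _)]
  | single v k =>
    rw [toIdeal₀_single, map_pow]
    exact (Finsupp.prod_single_index (h := fun v k => φ (prime₀ v) ^ k) (pow_zero _)).symm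

lemma count_toIdeal (e : HeightOneSpectrum R →₀ ℕ) (v : HeightOneSpectrum R) :
    FractionalIdeal.count (FractionRing R) v
      ((toIdeal e : Ideal R) : FractionalIdeal R⁰ (FractionRing R)) = (e v : ℤ) := by
  classical
  have h1 : ((toIdeal e : Ideal R) : FractionalIdeal R⁰ (FractionRing R)) =
      (e.mapRange (Nat.cast : ℕ → ℤ) rfl).prod
        (fun v n => (v.asIdeal : FractionalIdeal R⁰ (FractionRing R)) ^ n) := by
    rw [Finsupp.prod_mapRange_index (fun _ => zpow_zero _)]
    unfold toIdeal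
    rw [← FractionalIdeal.coeIdealHom_apply, map_finsuppProd]
    refine Finsupp.prod_congr fun w _ => ?_
    rw [FractionalIdeal.coeIdealHom_apply, FractionalIdeal.coeIdeal_pow, zpow_natCast]
  rw [h1, FractionalIdeal.count_finsuppProd]
  simp

lemma toIdeal_injective : Function.Injective (toIdeal (R := R)) := by
  intro e e' h
  ext v
  have h1 := count_toIdeal e v
  rw [h, count_toIdeal e' v] at h1
  exact_mod_cast h1.symm

lemma exists_toIdeal_eq {I : Ideal R} (hI : I ≠ 0) :
    ∃ e : HeightOneSpectrum R →₀ ℕ, toIdeal e = I := by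
  classical
  induction I using UniqueFactorizationMonoid.induction_on_prime with
  | h₁ => exact absurd rfl hI
  | h₂ x hx =>
    refine ⟨0, ?_⟩
    rw [toIdeal_zero, Ideal.one_eq_top]
    exact (Ideal.isUnit_iff.mp hx).symm
  | h₃ a p ha hp ih =>
    obtain ⟨e, he⟩ := ih ha
    have hp0 : p ≠ ⊥ := hp.ne_zero
    have hpp : p.IsPrime := Ideal.isPrime_of_prime hp
    refine ⟨Finsupp.single ⟨p, hpp, hp0⟩ 1 + e, ?_⟩
    rw [toIdeal_add, toIdeal_single, pow_one, he]

lemma toIdeal₀_bijective : Function.Bijective (toIdeal₀ (R := R)) := by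
  constructor
  · intro e e' h
    exact toIdeal_injective (congrArg Subtype.val h)
  · intro I
    obtain ⟨e, he⟩ := exists_toIdeal_eq (nonZeroDivisors.ne_zero I.2)
    exact ⟨e, Subtype.ext he⟩

/-- exponent vectors ≃ nonzero ideals. -/
def idealEquiv : (HeightOneSpectrum R →₀ ℕ) ≃ (Ideal R)⁰ :=
  Equiv.ofBijective toIdeal₀ toIdeal₀_bijective

lemma idealEquiv_apply (e : HeightOneSpectrum R →₀ ℕ) : idealEquiv e = toIdeal₀ e := rfl

/-- primes are pairwise distinct nonzero ideals. -/
lemma prime₀_injective : Function.Injective (prime₀ (R := R)) := by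
  intro v w h
  exact HeightOneSpectrum.ext (congrArg Subtype.val h)

lemma prime₀_eq_toIdeal₀_single (v : HeightOneSpectrum R) :
    prime₀ v = toIdeal₀ (Finsupp.single v 1) := by
  rw [toIdeal₀_single, pow_one]

end Fermat.Agent.ExtVan.SecondIneq
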