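import Mathlib
import Fermat.Agent.ExtVan.SecondIneq.EulerFinsupp
import Fermat.Agent.ExtVan.SecondIneq.IdealFinsupp

/-!
# Euler product for completely multiplicative functions on nonzero ideals
(S14 long shot, second inequality, brick 2I-e)
-/

set_option autoImplicit false

noncomputable section

open Finset Filter Topology IsDedekindDomain nonZeroDivisors

namespace Fermat.Agent.ExtVan.SecondIneq

variable {R : Type*} [CommRing R] [IsDedekindDomain R]
variable {𝕜 : Type*} [NormedField 𝕜] [CompleteSpace 𝕜]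

lemma wt_eq_map_toIdeal₀ (Φ : (Ideal R)⁰ →* 𝕜) (e : HeightOneSpectrum R →₀ ℕ) :
    wt (fun v => Φ (prime₀ v)) e = Φ (toIdeal₀ e) :=
  (map_toIdeal₀ Φ e).symm

/-- **Euler product** of a completely multiplicative function on the nonzero ideals of a Dedekind
domain. -/
theorem tendsto_prod_one_sub_inv_ideal (Φ : (Ideal R)⁰ →* 𝕜)
    (h1 : ∀ v : HeightOneSpectrum R, ‖Φ (prime₀ v)‖ < 1)
    (hsum : Summable fun I : (Ideal R)⁰ => ‖Φ I‖) :
    Tendsto (fun S : Finset (HeightOneSpectrum R) => ∏ v ∈ S, (1 - Φ (prime₀ v))⁻¹) atTop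
      (𝓝 (∑' I : (Ideal R)⁰, Φ I)) := by
  have hs : Summable fun e : HeightOneSpectrum R →₀ ℕ => ‖wt (fun v => Φ (prime₀ v)) e‖ := by
    simp_rw [wt_eq_map_toIdeal₀]
    exact (idealEquiv (R := R)).summable_iff.mpr hsum
  have h := tendsto_prod_one_sub_inv (fun v => Φ (prime₀ v)) h1 hs
  have ht : ∑' e : HeightOneSpectrum R →₀ ℕ, wt (fun v => Φ (prime₀ v)) e =
      ∑' I : (Ideal R)⁰, Φ I := by
    simp_rw [wt_eq_map_toIdeal₀]
    exact (idealEquiv (R := R)).tsum_eq (fun I => Φ I)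
  rwa [ht] at h

end Fermat.Agent.ExtVan.SecondIneq
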