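import Mathlib

/-!
# Discrete Abel summation bounds (S14 long shot, second inequality, brick 2I-d)

If the partial sums `S n = ∑_{k=1}^n a k` satisfy `‖S n‖ ≤ B n^θ` with `θ < 1`, then the
Dirichlet partial sums `∑_{k=1}^N a k k^{-s}` are bounded uniformly in `N` and `s ∈ [1, 2]`.
-/

set_option autoImplicit false

noncomputable section

open Finset Filter Topology

namespace Fermat.Agent.ExtVan.SecondIneq

/-- `x^{-s} - (x+1)^{-s} ≥ 0`. -/
lemma rpow_neg_sub_nonneg {x s : ℝ} (hx : 1 ≤ x) (hs : 0 ≤ s) :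
    0 ≤ x ^ (-s) - (x + 1) ^ (-s) := by
  have hx0 : 0 < x := by linarith
  rw [sub_nonneg]
  exact Real.rpow_le_rpow_of_nonpos hx0 (by linarith) (by linarith)

/-- `x^{-s} - (x+1)^{-s} ≤ s x^{-s-1}` for `x ≥ 1`, `s ≥ 1` (Bernoulli). -/
lemma rpow_neg_sub_le {x s : ℝ} (hx : 1 ≤ x) (hs : 1 ≤ s) :
    x ^ (-s) - (x + 1) ^ (-s) ≤ s * x ^ (-s - 1) := by
  have hx0 : 0 < x := by linarith
  have hx1 : 0 < x + 1 := by linarith
  have hB : 1 + s * (-(1 / (x + 1))) ≤ (1 + -(1 / (x + 1))) ^ s := by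
    apply one_add_mul_self_le_rpow_one_add _ hs
    rw [neg_le_neg_iff, div_le_one hx1]
    linarith
  have h1 : (1 + -(1 / (x + 1))) = x / (x + 1) := by
    field_simp
    ring
  rw [h1, Real.div_rpow hx0.le hx1.le] at hB
  have h2 : (x + 1) ^ (-s) = x ^ (-s) * (x ^ s / (x + 1) ^ s) := by
    rw [Real.rpow_neg hx0.le, Real.rpow_neg hx1.le]
    have : x ^ s ≠ 0 := (Real.rpow_pos_of_pos hx0 s).ne'
    field_simp
  rw [h2]
  have h3 : 0 ≤ x ^ (-s) := (Real.rpow_pos_of_pos hx0 _).le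
  have h4 : x ^ (-s - 1) = x ^ (-s) / x := by
    rw [Real.rpow_sub hx0, Real.rpow_one]
  rw [h4]
  have h5 : x ^ (-s) - x ^ (-s) * (x ^ s / (x + 1) ^ s) ≤ x ^ (-s) * (s * (1 / (x + 1))) := by
    have : 1 - x ^ s / (x + 1) ^ s ≤ s * (1 / (x + 1)) := by linarith
    calc x ^ (-s) - x ^ (-s) * (x ^ s / (x + 1) ^ s)
        = x ^ (-s) * (1 - x ^ s / (x + 1) ^ s) := by ring
      _ ≤ x ^ (-s) * (s * (1 / (x + 1))) := mul_le_mul_of_nonneg_left this h3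
  refine h5.trans ?_
  have h6 : 1 / (x + 1) ≤ 1 / x := one_div_le_one_div_of_le hx0 (by linarith)
  have hs0 : 0 ≤ s := by linarith
  calc x ^ (-s) * (s * (1 / (x + 1))) ≤ x ^ (-s) * (s * (1 / x)) :=
        mul_le_mul_of_nonneg_left (mul_le_mul_of_nonneg_left h6 hs0) h3
    _ = s * (x ^ (-s) / x) := by ring

/-- The constant of the Abel bound. -/
def abelConst (θ : ℝ) : ℝ := 1 + 2 * ∑' i : ℕ, ((i : ℝ) + 1) ^ (θ - 2)

lemma summable_abel {θ : ℝ} (hθ : θ < 1) : Summable fun i : ℕ => ((i : ℝ) + 1) ^ (θ - 2) := by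
  have h : Summable fun n : ℕ => (n : ℝ) ^ (θ - 2) := by
    rw [Real.summable_nat_rpow]
    linarith
  have := (summable_nat_add_iff 1).mpr h
  simpa using this

lemma abelConst_nonneg {θ : ℝ} : 0 ≤ abelConst θ := by
  unfold abelConst
  have : 0 ≤ ∑' i : ℕ, ((i : ℝ) + 1) ^ (θ - 2) :=
    tsum_nonneg fun i => Real.rpow_nonneg (by positivity) _
  linarith

/-- **Abel bound**: Dirichlet partial sums are bounded if the coefficient partial sums are
`O(n^θ)`, `θ < 1`.  Sequences are indexed from `0`, the `i`-th term has weight `(i+1)^{-s}`. -/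
theorem norm_sum_smul_rpow_le {E : Type*} [NormedAddCommGroup E] [NormedSpace ℝ E]
    (b : ℕ → E) {B θ : ℝ} (hθ : θ < 1) (hB : 0 ≤ B)
    (hS : ∀ n : ℕ, ‖∑ i ∈ range (n + 1), b i‖ ≤ B * ((n : ℝ) + 1) ^ θ)
    {s : ℝ} (hs1 : 1 ≤ s) (hs2 : s ≤ 2) (N : ℕ) :
    ‖∑ i ∈ range N, (((i : ℝ) + 1) ^ (-s)) • b i‖ ≤ B * abelConst θ := by
  rcases Nat.eq_zero_or_pos N with rfl | hN
  · simp only [range_zero, sum_empty, norm_zero]
    exact mul_nonneg hB abelConst_nonneg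
  rw [sum_range_by_parts]
  have hsum := summable_abel hθ
  -- first term
  have hN1 : ((N - 1 : ℕ) : ℝ) + 1 = N := by
    rw [Nat.cast_sub hN]; simp
  have hNpos : (0 : ℝ) < N := by exact_mod_cast hN
  have hN1' : (1 : ℝ) ≤ N := by exact_mod_cast hN
  have hfirst : ‖(((N - 1 : ℕ) : ℝ) + 1) ^ (-s) • ∑ i ∈ range N, b i‖ ≤ B := by
    rw [hN1, norm_smul, Real.norm_of_nonneg (Real.rpow_nonneg hNpos.le _)]
    have h1 := hS (N - 1)
    rw [Nat.sub_add_cancel hN, hN1] at h1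
    calc (N : ℝ) ^ (-s) * ‖∑ i ∈ range N, b i‖ ≤ (N : ℝ) ^ (-s) * (B * (N : ℝ) ^ θ) :=
          mul_le_mul_of_nonneg_left h1 (Real.rpow_nonneg hNpos.le _)
      _ = B * (N : ℝ) ^ (θ - s) := by
          rw [show θ - s = -s + θ by ring, Real.rpow_add hNpos]; ring
      _ ≤ B * 1 := by
          apply mul_le_mul_of_nonneg_left _ hB
          exact Real.rpow_le_one_of_one_le_of_nonpos hN1' (by linarith)
      _ = B := mul_one B
  -- second term
  have hsecond : ‖∑ i ∈ range (N - 1),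
      ((((i + 1 : ℕ) : ℝ) + 1) ^ (-s) - ((i : ℝ) + 1) ^ (-s)) • ∑ j ∈ range (i + 1), b j‖
      ≤ B * (2 * ∑' i : ℕ, ((i : ℝ) + 1) ^ (θ - 2)) := by
    refine (norm_sum_le _ _).trans ?_
    have hterm : ∀ i : ℕ, ‖((((i + 1 : ℕ) : ℝ) + 1) ^ (-s) - ((i : ℝ) + 1) ^ (-s)) •
        ∑ j ∈ range (i + 1), b j‖ ≤ B * (2 * ((i : ℝ) + 1) ^ (θ - 2)) := by
      intro i
      have hx : (1 : ℝ) ≤ (i : ℝ) + 1 := by
        have : (0 : ℝ) ≤ i := Nat.cast_nonneg i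
        linarith
      have hx0 : (0 : ℝ) < (i : ℝ) + 1 := by linarith
      rw [norm_smul, Real.norm_eq_abs, abs_sub_comm, Nat.cast_add, Nat.cast_one,
        abs_of_nonneg (rpow_neg_sub_nonneg hx (by linarith))]
      have h1 := rpow_neg_sub_le hx hs1
      have h2 := hS i
      have h3 : ((i : ℝ) + 1) ^ (-s - 1) ≤ ((i : ℝ) + 1) ^ (-2 : ℝ) :=
        Real.rpow_le_rpow_of_exponent_le hx (by linarith)
      have h4 : 0 ≤ ((i : ℝ) + 1) ^ (-s) - ((i : ℝ) + 1 + 1) ^ (-s) :=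
        rpow_neg_sub_nonneg hx (by linarith)
      calc (((i : ℝ) + 1) ^ (-s) - ((i : ℝ) + 1 + 1) ^ (-s)) * ‖∑ j ∈ range (i + 1), b j‖
          ≤ (s * ((i : ℝ) + 1) ^ (-s - 1)) * (B * ((i : ℝ) + 1) ^ θ) :=
            mul_le_mul h1 h2 (norm_nonneg _)
              (mul_nonneg (by linarith) (Real.rpow_nonneg hx0.le _))
        _ ≤ (2 * ((i : ℝ) + 1) ^ (-2 : ℝ)) * (B * ((i : ℝ) + 1) ^ θ) := by
            apply mul_le_mul_of_nonneg_right _
              (mul_nonneg hB (Real.rpow_nonneg hx0.le _))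
            exact mul_le_mul hs2 h3 (Real.rpow_nonneg hx0.le _) (by norm_num)
        _ = B * (2 * ((i : ℝ) + 1) ^ (θ - 2)) := by
            rw [show θ - 2 = (-2 : ℝ) + θ by ring, Real.rpow_add hx0]; ring
    calc ∑ i ∈ range (N - 1), ‖((((i + 1 : ℕ) : ℝ) + 1) ^ (-s) - ((i : ℝ) + 1) ^ (-s)) •
          ∑ j ∈ range (i + 1), b j‖
        ≤ ∑ i ∈ range (N - 1), B * (2 * ((i : ℝ) + 1) ^ (θ - 2)) :=
          sum_le_sum fun i _ => hterm i
      _ = B * (2 * ∑ i ∈ range (N - 1), ((i : ℝ) + 1) ^ (θ - 2)) := by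
          simp only [mul_sum]
      _ ≤ B * (2 * ∑' i : ℕ, ((i : ℝ) + 1) ^ (θ - 2)) := by
          apply mul_le_mul_of_nonneg_left _ hB
          apply mul_le_mul_of_nonneg_left _ (by norm_num)
          exact hsum.sum_le_tsum _ fun i _ => Real.rpow_nonneg (by positivity) _
  calc ‖(((N - 1 : ℕ) : ℝ) + 1) ^ (-s) • ∑ i ∈ range N, b i -
        ∑ i ∈ range (N - 1), ((((i + 1 : ℕ) : ℝ) + 1) ^ (-s) - ((i : ℝ) + 1) ^ (-s)) •
          ∑ j ∈ range (i + 1), b j‖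
      ≤ B + B * (2 * ∑' i : ℕ, ((i : ℝ) + 1) ^ (θ - 2)) :=
        (norm_sub_le _ _).trans (add_le_add hfirst hsecond)
    _ = B * abelConst θ := by unfold abelConst; ring

end Fermat.Agent.ExtVan.SecondIneq
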