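import Mathlib
import Fermat.Agent.ExtVan.SecondIneq.AbelSum

/-!
# Real zeta bounds and Abel's inequality (S14 long shot, second inequality)

* `sum_mul_le_sum_mul_of_partial_le`: Abel's inequality (majorisation of partial sums against an
  antitone nonnegative weight).
* `exists_zeta_bounds`: `c/(s-1) ≤ ∑' i, (i+1)^{-s} ≤ C/(s-1)` on `(1, 2]`.
-/

set_option autoImplicit false

noncomputable section

open Finset Filter Topology

namespace Fermat.Agent.ExtVan.SecondIneq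

/-- **Abel's inequality**. -/
theorem sum_mul_le_sum_mul_of_partial_le (f : ℕ → ℝ) (hf : Antitone f) (hf0 : ∀ i, 0 ≤ f i)
    (b b' : ℕ → ℝ) (h : ∀ n, ∑ i ∈ range n, b i ≤ ∑ i ∈ range n, b' i) (N : ℕ) :
    ∑ i ∈ range N, f i * b i ≤ ∑ i ∈ range N, f i * b' i := by
  rw [← sub_nonneg, ← sum_sub_distrib]
  have h1 : ∀ i, f i * b' i - f i * b i = f i • (b' i - b i) := fun i => by
    rw [smul_eq_mul]; ring
  simp_rw [h1]
  rw [sum_range_by_parts]
  have hD : ∀ n, 0 ≤ ∑ i ∈ range n, (b' i - b i) := fun n => by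
    rw [sum_sub_distrib, sub_nonneg]; exact h n
  have h2 : ∑ i ∈ range (N - 1), (f (i + 1) - f i) • ∑ j ∈ range (i + 1), (b' j - b j) ≤ 0 := by
    apply sum_nonpos
    intro i _
    rw [smul_eq_mul]
    exact mul_nonpos_of_nonpos_of_nonneg (sub_nonpos.mpr (hf (Nat.le_succ i))) (hD _)
  have h3 : 0 ≤ f (N - 1) • ∑ i ∈ range N, (b' i - b i) := by
    rw [smul_eq_mul]; exact mul_nonneg (hf0 _) (hD _)
  linarith

/-- the weight `(i+1)^{-s}` is antitone for `s ≥ 0`. -/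
lemma antitone_succ_rpow_neg {s : ℝ} (hs : 0 ≤ s) : Antitone fun i : ℕ => ((i : ℝ) + 1) ^ (-s) := by
  intro i j hij
  have hi : (0 : ℝ) < (i : ℝ) + 1 := by positivity
  have : ((i : ℝ) + 1) ≤ (j : ℝ) + 1 := by
    have : (i : ℝ) ≤ j := by exact_mod_cast hij
    linarith
  exact Real.rpow_le_rpow_of_nonpos hi this (by linarith)

/-- the real zeta series indexed from `0`. -/
def zetaR (s : ℝ) : ℝ := ∑' i : ℕ, ((i : ℝ) + 1) ^ (-s)

lemma summable_zetaR {s : ℝ} (hs : 1 < s) : Summable fun i : ℕ => ((i : ℝ) + 1) ^ (-s) := by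
  have h : Summable fun n : ℕ => (n : ℝ) ^ (-s) := by
    rw [Real.summable_nat_rpow]
    linarith
  have := (summable_nat_add_iff 1).mpr h
  simpa using this

lemma zetaR_eq {s : ℝ} (hs : 1 < s) : zetaR s = ∑' n : ℕ, 1 / (n : ℝ) ^ s := by
  have h : Summable fun n : ℕ => 1 / (n : ℝ) ^ s := by
    have := (Real.summable_nat_rpow (p := -s)).mpr (by linarith)
    refine this.congr fun n => ?_
    rw [Real.rpow_neg (Nat.cast_nonneg n), one_div]
  rw [h.tsum_eq_zero_add]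
  have h0 : (1 : ℝ) / ((0 : ℕ) : ℝ) ^ s = 0 := by
    rw [Nat.cast_zero, Real.zero_rpow (by linarith), div_zero]
  rw [h0, zero_add]
  unfold zetaR
  refine tsum_congr fun i => ?_
  rw [Real.rpow_neg (by positivity), one_div]
  push_cast
  rfl

lemma one_le_zetaR {s : ℝ} (hs : 1 < s) : 1 ≤ zetaR s := by
  have h := (summable_zetaR hs).sum_le_tsum (range 1)
    (fun i _ => Real.rpow_nonneg (by positivity) _)
  simpa [zetaR] using h

lemma zetaR_antitone {s t : ℝ} (hs : 1 < s) (hst : s ≤ t) : zetaR t ≤ zetaR s := by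
  refine (summable_zetaR (hs.trans_le hst)).tsum_le_tsum (fun i => ?_) (summable_zetaR hs)
  have h1 : (1 : ℝ) ≤ (i : ℝ) + 1 := by
    have : (0 : ℝ) ≤ i := Nat.cast_nonneg i
    linarith
  exact Real.rpow_le_rpow_of_exponent_le h1 (by linarith)

/-- two-sided bound of the real zeta function on `(1, 2]`. -/
theorem exists_zeta_bounds : ∃ c C : ℝ, 0 < c ∧ 0 < C ∧ ∀ s : ℝ, 1 < s → s ≤ 2 →
    c / (s - 1) ≤ zetaR s ∧ zetaR s ≤ C / (s - 1) := by
  have hlim := tendsto_sub_mul_tsum_nat_rpow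
  have hev : ∀ᶠ s in 𝓝[>] (1 : ℝ), (1 : ℝ) / 2 < (s - 1) * ∑' n : ℕ, 1 / (n : ℝ) ^ s ∧
      (s - 1) * ∑' n : ℕ, 1 / (n : ℝ) ^ s < 2 :=
    (hlim.eventually (lt_mem_nhds (by norm_num : (1:ℝ)/2 < 1))).and
      (hlim.eventually (gt_mem_nhds (by norm_num : (1:ℝ) < 2)))
  rw [eventually_nhdsWithin_iff, Metric.eventually_nhds_iff] at hev
  obtain ⟨ε, hε, hball⟩ := hev
  set δ : ℝ := min (ε / 2) 1 with hδ
  have hδ0 : 0 < δ := lt_min (by linarith) one_pos
  have hδε : δ < ε := lt_of_le_of_lt (min_le_left _ _) (by linarith)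
  have hδ1 : δ ≤ 1 := min_le_right _ _
  have h1δ : (1 : ℝ) < 1 + δ := by linarith
  have hzpos : 0 < zetaR (1 + δ) := lt_of_lt_of_le one_pos (one_le_zetaR h1δ)
  refine ⟨min (1 / 2) δ, max 2 (zetaR (1 + δ)), lt_min (by norm_num) hδ0,
    lt_of_lt_of_le (by norm_num) (le_max_left _ _), ?_⟩
  intro s hs1 hs2
  have hs0 : 0 < s - 1 := by linarith
  by_cases hsδ : s < 1 + δ
  · have hdist : dist s 1 < ε := by
      rw [Real.dist_eq, abs_of_pos hs0]; linarith
    have hb := hball hdist hs1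
    rw [← zetaR_eq hs1] at hb
    constructor
    · rw [div_le_iff₀ hs0]
      calc min (1 / 2) δ ≤ 1 / 2 := min_le_left _ _
        _ ≤ zetaR s * (s - 1) := by rw [mul_comm]; exact hb.1.le
    · rw [le_div_iff₀ hs0]
      calc zetaR s * (s - 1) ≤ 2 := by rw [mul_comm]; exact hb.2.le
        _ ≤ max 2 (zetaR (1 + δ)) := le_max_left _ _
  · push Not at hsδ
    constructor
    · rw [div_le_iff₀ hs0]
      calc min (1 / 2) δ ≤ δ := min_le_right _ _
        _ ≤ s - 1 := by linarith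
        _ = 1 * (s - 1) := (one_mul _).symm
        _ ≤ zetaR s * (s - 1) := mul_le_mul_of_nonneg_right (one_le_zetaR hs1) hs0.le
    · rw [le_div_iff₀ hs0]
      calc zetaR s * (s - 1) ≤ zetaR (1 + δ) * 1 :=
            mul_le_mul (zetaR_antitone h1δ hsδ) (by linarith) hs0.le hzpos.le
        _ = zetaR (1 + δ) := mul_one _
        _ ≤ max 2 (zetaR (1 + δ)) := le_max_right _ _

end Fermat.Agent.ExtVan.SecondIneq
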