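import Mathlib
import Fermat.Agent.ExtVan.IdealCountError
import Fermat.Agent.ExtVan.SecondIneq.ZetaReal

/-!
# Dirichlet series over the nonzero ideals of a number field (S14 long shot, brick 2I-d)

* `idealsLE K n`: the finset of nonzero ideals of norm `≤ n`; fibrewise summation identities.
* `exists_bound_sum_class`: `∑_{N I ≤ m} φ [I] = κ m ∑_C φ C + O(m^θ)`, `θ = 1 - 1/[K:ℚ]`.
* `summable_nrm_rpow`: `∑_I N I ^ (-s)` converges for `s > 1`.
* `exists_bound_dirichlet`: `∑_I N I ^ (-s) φ [I] = κ ζ(s) ∑_C φ C + O(1)` on `(1, 2]`.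
-/

set_option autoImplicit false

noncomputable section

open Finset Filter Topology NumberField Ideal nonZeroDivisors

namespace Fermat.Agent.ExtVan.SecondIneq

open Fermat.Agent.ExtVan.IdealCount

variable (K : Type*) [Field K] [NumberField K]

/-- the nonzero ideals of norm at most `n`. -/
def idealsLE (n : ℕ) : Finset (Ideal (𝓞 K))⁰ :=
  (Ideal.finite_setOfPred_absNorm_le₀ (S := 𝓞 K) n).toFinset

variable {K}

lemma mem_idealsLE {n : ℕ} {I : (Ideal (𝓞 K))⁰} :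
    I ∈ idealsLE K n ↔ absNorm (I : Ideal (𝓞 K)) ≤ n := by
  simp [idealsLE]

lemma idealsLE_mono : Monotone (idealsLE K) := by
  intro m n hmn I hI
  rw [mem_idealsLE] at hI ⊢
  exact hI.trans hmn

lemma one_le_absNorm₀ (I : (Ideal (𝓞 K))⁰) : 1 ≤ absNorm (I : Ideal (𝓞 K)) := by
  rw [Nat.one_le_iff_ne_zero, Ne, Ideal.absNorm_eq_zero_iff, ← Ideal.zero_eq_bot]
  exact nonZeroDivisors.ne_zero I.2

lemma exists_mem_idealsLE (I : (Ideal (𝓞 K))⁰) : ∃ n, I ∈ idealsLE K n :=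
  ⟨absNorm (I : Ideal (𝓞 K)), mem_idealsLE.mpr le_rfl⟩

lemma tendsto_idealsLE : Tendsto (idealsLE K) atTop atTop :=
  Filter.tendsto_atTop_finset_of_monotone idealsLE_mono exists_mem_idealsLE

lemma exists_subset_idealsLE (u : Finset (Ideal (𝓞 K))⁰) : ∃ n, u ⊆ idealsLE K n := by
  refine ⟨u.sup fun I => absNorm (I : Ideal (𝓞 K)), fun I hI => ?_⟩
  rw [mem_idealsLE]
  exact Finset.le_sup (f := fun I : (Ideal (𝓞 K))⁰ => absNorm (I : Ideal (𝓞 K))) hI

variable (K) in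
/-- the nonzero ideals of norm exactly `m`. -/
def idealsEQ (m : ℕ) : Finset (Ideal (𝓞 K))⁰ := by
  classical
  exact (idealsLE K m).filter fun I : (Ideal (𝓞 K))⁰ => absNorm (I : Ideal (𝓞 K)) = m

lemma mem_idealsEQ {m : ℕ} {I : (Ideal (𝓞 K))⁰} :
    I ∈ idealsEQ K m ↔ absNorm (I : Ideal (𝓞 K)) = m := by
  classical
  unfold idealsEQ
  rw [Finset.mem_filter, mem_idealsLE]
  exact ⟨fun h => h.2, fun h => ⟨h.le, h⟩⟩

/-- fibrewise summation with a weight depending on the norm. -/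
lemma sum_idealsLE_weight {E : Type*} [AddCommGroup E] [Module ℝ E] (w : ℕ → ℝ) (N : ℕ)
    (g : (Ideal (𝓞 K))⁰ → E) :
    ∑ I ∈ idealsLE K N, w (absNorm (I : Ideal (𝓞 K))) • g I =
      ∑ i ∈ range N, w (i + 1) • ∑ I ∈ idealsEQ K (i + 1), g I := by
  classical
  rw [← Finset.sum_fiberwise_of_maps_to (s := idealsLE K N) (t := range N)
    (g := fun I : (Ideal (𝓞 K))⁰ => absNorm (I : Ideal (𝓞 K)) - 1)]
  · refine Finset.sum_congr rfl fun i hi => ?_
    rw [Finset.mem_range] at hi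
    rw [Finset.smul_sum]
    have hfil : (idealsLE K N).filter
        (fun I : (Ideal (𝓞 K))⁰ => absNorm (I : Ideal (𝓞 K)) - 1 = i) =
        idealsEQ K (i + 1) := by
      ext I
      rw [Finset.mem_filter, mem_idealsLE, mem_idealsEQ]
      have := one_le_absNorm₀ I
      omega
    rw [hfil]
    refine Finset.sum_congr rfl fun I hI => ?_
    rw [mem_idealsEQ] at hI
    rw [hI]
  · intro I hI
    rw [mem_idealsLE] at hI
    rw [Finset.mem_range]
    have := one_le_absNorm₀ I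
    omega

/-- fibrewise summation. -/
lemma sum_range_sum_idealsEQ {E : Type*} [AddCommGroup E] [Module ℝ E] (N : ℕ)
    (g : (Ideal (𝓞 K))⁰ → E) :
    ∑ i ∈ range N, ∑ I ∈ idealsEQ K (i + 1), g I = ∑ I ∈ idealsLE K N, g I := by
  have := sum_idealsLE_weight (K := K) (fun _ => 1) N g
  simpa using this.symm

/-- the number of ideals of norm `≤ m` in a class, as the cardinality of a finset. -/
lemma natCard_eq_card_filter (C : ClassGroup (𝓞 K)) (m : ℕ) [DecidableEq (ClassGroup (𝓞 K))] :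
    Nat.card {I : (Ideal (𝓞 K))⁰ // (absNorm (I : Ideal (𝓞 K)) : ℝ) ≤ (m : ℝ) ∧
      ClassGroup.mk0 I = C} =
      ((idealsLE K m).filter fun I : (Ideal (𝓞 K))⁰ => ClassGroup.mk0 I = C).card := by
  refine Nat.subtype_card _ fun I => ?_
  rw [Finset.mem_filter, mem_idealsLE, Nat.cast_le]

section ClassSums

variable {E : Type*} [NormedAddCommGroup E] [NormedSpace ℝ E]

/-- sum over the ideals of norm `≤ m` of a class function. -/
lemma sum_idealsLE_class (φ : ClassGroup (𝓞 K) → E) (m : ℕ) :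
    ∑ I ∈ idealsLE K m, φ (ClassGroup.mk0 I) =
      ∑ C : ClassGroup (𝓞 K), (Nat.card {I : (Ideal (𝓞 K))⁰ //
        (absNorm (I : Ideal (𝓞 K)) : ℝ) ≤ (m : ℝ) ∧ ClassGroup.mk0 I = C} : ℝ) • φ C := by
  classical
  rw [← Finset.sum_fiberwise (idealsLE K m) (fun I : (Ideal (𝓞 K))⁰ => ClassGroup.mk0 I)]
  refine Finset.sum_congr rfl fun C _ => ?_
  rw [natCard_eq_card_filter, Nat.cast_smul_eq_nsmul, ← Finset.sum_const]
  refine Finset.sum_congr rfl fun I hI => ?_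
  rw [Finset.mem_filter] at hI
  rw [hI.2]

/-- the exponent of the error term. -/
abbrev theta (K : Type*) [Field K] [NumberField K] : ℝ := 1 - (Module.finrank ℚ K : ℝ)⁻¹

lemma theta_lt_one : theta K < 1 := by
  have : (0 : ℝ) < (Module.finrank ℚ K : ℝ)⁻¹ :=
    inv_pos.mpr (by exact_mod_cast (Module.finrank_pos : 0 < Module.finrank ℚ K))
  unfold theta
  linarith

/-- **Partial sums of a class function over ideals**. -/
theorem exists_bound_sum_class (φ : ClassGroup (𝓞 K) → E) :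
    ∃ B : ℝ, 0 ≤ B ∧ ∀ m : ℕ, 1 ≤ m →
      ‖∑ I ∈ idealsLE K m, φ (ClassGroup.mk0 I) -
        (idealDensity K * (m : ℝ)) • ∑ C : ClassGroup (𝓞 K), φ C‖ ≤ B * (m : ℝ) ^ theta K := by
  classical
  choose B hB using fun C : ClassGroup (𝓞 K) => exists_bound_card_norm_le_and_mk_eq (K := K) C
  refine ⟨∑ C, |B C| * ‖φ C‖, Finset.sum_nonneg fun C _ => by positivity, fun m hm => ?_⟩
  have hm1 : (1 : ℝ) ≤ (m : ℝ) := by exact_mod_cast hm
  rw [sum_idealsLE_class, Finset.smul_sum, ← Finset.sum_sub_distrib, Finset.sum_mul]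
  refine (norm_sum_le _ _).trans (Finset.sum_le_sum fun C _ => ?_)
  rw [← sub_smul, norm_smul, Real.norm_eq_abs]
  have h1 := hB C (m : ℝ) hm1
  have h2 : |B C| * ‖φ C‖ * (m : ℝ) ^ theta K = (|B C| * (m : ℝ) ^ theta K) * ‖φ C‖ := by ring
  rw [h2]
  refine mul_le_mul_of_nonneg_right (h1.trans ?_) (norm_nonneg _)
  exact mul_le_mul_of_nonneg_right (le_abs_self _) (Real.rpow_nonneg (by linarith) _)

/-- the norm of a nonzero ideal as a real number. -/
abbrev nrm (I : (Ideal (𝓞 K))⁰) : ℝ := ((absNorm (I : Ideal (𝓞 K)) : ℕ) : ℝ)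

lemma one_le_nrm (I : (Ideal (𝓞 K))⁰) : 1 ≤ nrm I := by
  have := one_le_absNorm₀ I
  unfold nrm
  exact_mod_cast this

lemma nrm_pos (I : (Ideal (𝓞 K))⁰) : 0 < nrm I := lt_of_lt_of_le one_pos (one_le_nrm I)

lemma nrm_mul (I J : (Ideal (𝓞 K))⁰) : nrm (I * J) = nrm I * nrm J := by
  unfold nrm
  rw [Submonoid.coe_mul, map_mul, Nat.cast_mul]

lemma nrm_one : nrm (1 : (Ideal (𝓞 K))⁰) = 1 := by
  unfold nrm
  rw [OneMemClass.coe_one, map_one, Nat.cast_one]

/-- **Dirichlet partial sums of a class function**, uniformly bounded away from the main term. -/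
theorem exists_bound_dirichlet_partial (φ : ClassGroup (𝓞 K) → E) :
    ∃ B : ℝ, 0 ≤ B ∧ ∀ s : ℝ, 1 ≤ s → s ≤ 2 → ∀ N : ℕ,
      ‖∑ I ∈ idealsLE K N, (nrm I ^ (-s)) • φ (ClassGroup.mk0 I) -
        (idealDensity K * ∑ i ∈ range N, ((i : ℝ) + 1) ^ (-s)) •
          ∑ C : ClassGroup (𝓞 K), φ C‖ ≤ B := by
  obtain ⟨B, hB0, hB⟩ := exists_bound_sum_class (K := K) φ
  refine ⟨B * abelConst (theta K), mul_nonneg hB0 abelConst_nonneg, fun s hs1 hs2 N => ?_⟩
  set b : ℕ → E := fun i => ∑ I ∈ idealsEQ K (i + 1), φ (ClassGroup.mk0 I) -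
    idealDensity K • ∑ C : ClassGroup (𝓞 K), φ C with hb
  have hS : ∀ n : ℕ, ‖∑ i ∈ range (n + 1), b i‖ ≤ B * ((n : ℝ) + 1) ^ theta K := by
    intro n
    have h1 := hB (n + 1) (by omega)
    rw [hb, Finset.sum_sub_distrib, sum_range_sum_idealsEQ, Finset.sum_const, Finset.card_range,
      ← Nat.cast_smul_eq_nsmul ℝ, smul_smul]
    rw [Nat.cast_add, Nat.cast_one] at h1
    rw [Nat.cast_add, Nat.cast_one, mul_comm]
    exact h1
  have key := norm_sum_smul_rpow_le b theta_lt_one hB0 hS hs1 hs2 N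
  refine le_of_eq_of_le (congrArg norm ?_) key
  have hw := sum_idealsLE_weight (K := K) (fun m : ℕ => (m : ℝ) ^ (-s)) N
    (fun I => φ (ClassGroup.mk0 I))
  simp only [Nat.cast_add, Nat.cast_one] at hw
  rw [hw, hb]
  simp only [smul_sub, Finset.sum_sub_distrib]
  congr 1
  rw [Finset.mul_sum, Finset.sum_smul]
  refine Finset.sum_congr rfl fun i _ => ?_
  rw [smul_smul, mul_comm]

/-- `∑_I N I ^ (-s)` has bounded partial sums, hence converges, for `1 < s ≤ 2`. -/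
lemma summable_nrm_rpow_aux {s : ℝ} (hs1 : 1 < s) (hs2 : s ≤ 2) :
    Summable fun I : (Ideal (𝓞 K))⁰ => nrm I ^ (-s) := by
  obtain ⟨B, -, hB⟩ := exists_bound_dirichlet_partial (K := K) (fun _ => (1 : ℝ))
  refine summable_of_sum_le (c := B + |idealDensity K| * zetaR s *
    ∑ _C : ClassGroup (𝓞 K), (1 : ℝ)) (fun I => Real.rpow_nonneg (nrm_pos I).le _) fun u => ?_
  obtain ⟨N, hN⟩ := exists_subset_idealsLE u
  have h1 : ∑ I ∈ u, nrm I ^ (-s) ≤ ∑ I ∈ idealsLE K N, nrm I ^ (-s) :=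
    Finset.sum_le_sum_of_subset_of_nonneg hN fun I _ _ => Real.rpow_nonneg (nrm_pos I).le _
  have h2 := hB s hs1.le hs2 N
  simp only [smul_eq_mul, mul_one] at h2
  have h3 : ∑ i ∈ range N, ((i : ℝ) + 1) ^ (-s) ≤ zetaR s :=
    (summable_zetaR hs1).sum_le_tsum _ fun i _ => Real.rpow_nonneg (by positivity) _
  have h3' : 0 ≤ ∑ i ∈ range N, ((i : ℝ) + 1) ^ (-s) :=
    Finset.sum_nonneg fun i _ => Real.rpow_nonneg (by positivity) _
  have ht : 0 ≤ ∑ _C : ClassGroup (𝓞 K), (1 : ℝ) := Finset.sum_nonneg fun _ _ => zero_le_one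
  rw [Real.norm_eq_abs] at h2
  have h4 := (abs_le.mp h2).2
  have h5 : idealDensity K * ∑ i ∈ range N, ((i : ℝ) + 1) ^ (-s) ≤
      |idealDensity K| * zetaR s :=
    mul_le_mul (le_abs_self _) h3 h3' (abs_nonneg _)
  have h6 : (idealDensity K * ∑ i ∈ range N, ((i : ℝ) + 1) ^ (-s)) *
      ∑ _C : ClassGroup (𝓞 K), (1 : ℝ) ≤ |idealDensity K| * zetaR s *
      ∑ _C : ClassGroup (𝓞 K), (1 : ℝ) := mul_le_mul_of_nonneg_right h5 ht
  linarith

/-- `∑_I N I ^ (-s)` converges for `1 < s`. -/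
theorem summable_nrm_rpow {s : ℝ} (hs1 : 1 < s) :
    Summable fun I : (Ideal (𝓞 K))⁰ => nrm I ^ (-s) := by
  by_cases hs2 : s ≤ 2
  · exact summable_nrm_rpow_aux hs1 hs2
  · push Not at hs2
    refine Summable.of_nonneg_of_le (fun I => Real.rpow_nonneg (nrm_pos I).le _) (fun I => ?_)
      (summable_nrm_rpow_aux (K := K) (s := 2) (by norm_num) le_rfl)
    exact Real.rpow_le_rpow_of_exponent_le (one_le_nrm I) (by linarith)

lemma idealDensity_pos : 0 < idealDensity K := by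
  unfold idealDensity
  refine div_pos (mul_pos (by positivity) (NumberField.Units.regulator_pos K)) ?_
  exact mul_pos (Nat.cast_pos.mpr (NumberField.Units.torsionOrder_pos K))
    (Real.sqrt_pos_of_pos (abs_pos.mpr (Int.cast_ne_zero.mpr (NumberField.discr_ne_zero K))))

variable [CompleteSpace E]

/-- the Dirichlet series of a class function converges for `1 < s`. -/
lemma summable_dirichlet (φ : ClassGroup (𝓞 K) → E) {s : ℝ} (hs1 : 1 < s) :
    Summable fun I : (Ideal (𝓞 K))⁰ => (nrm I ^ (-s)) • φ (ClassGroup.mk0 I) := by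
  refine Summable.of_norm_bounded
    (g := fun I : (Ideal (𝓞 K))⁰ => nrm I ^ (-s) * ∑ C : ClassGroup (𝓞 K), ‖φ C‖)
    ((summable_nrm_rpow hs1).mul_right _) fun I => ?_
  rw [norm_smul, Real.norm_of_nonneg (Real.rpow_nonneg (nrm_pos I).le _)]
  refine mul_le_mul_of_nonneg_left ?_ (Real.rpow_nonneg (nrm_pos I).le _)
  exact Finset.single_le_sum (f := fun C => ‖φ C‖) (fun C _ => norm_nonneg _) (Finset.mem_univ _)

/-- **Dirichlet series of a class function**: `∑_I N I ^ (-s) φ [I] = κ ζ(s) ∑_C φ C + O(1)`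
uniformly on `(1, 2]`. -/
theorem exists_bound_dirichlet (φ : ClassGroup (𝓞 K) → E) :
    ∃ B : ℝ, 0 ≤ B ∧ ∀ s : ℝ, 1 < s → s ≤ 2 →
      ‖∑' I : (Ideal (𝓞 K))⁰, (nrm I ^ (-s)) • φ (ClassGroup.mk0 I) -
        (idealDensity K * zetaR s) • ∑ C : ClassGroup (𝓞 K), φ C‖ ≤ B := by
  obtain ⟨B, hB0, hB⟩ := exists_bound_dirichlet_partial (K := K) φ
  refine ⟨B, hB0, fun s hs1 hs2 => ?_⟩
  have h1 : Tendsto (fun N : ℕ => ∑ I ∈ idealsLE K N, (nrm I ^ (-s)) • φ (ClassGroup.mk0 I))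
      atTop (𝓝 (∑' I : (Ideal (𝓞 K))⁰, (nrm I ^ (-s)) • φ (ClassGroup.mk0 I))) :=
    (summable_dirichlet φ hs1).hasSum.comp tendsto_idealsLE
  have h2 : Tendsto (fun N : ℕ => ∑ i ∈ range N, ((i : ℝ) + 1) ^ (-s)) atTop (𝓝 (zetaR s)) :=
    (summable_zetaR hs1).hasSum.tendsto_sum_nat
  have h3 := (h1.sub ((h2.const_mul (idealDensity K)).smul_const
    (∑ C : ClassGroup (𝓞 K), φ C))).norm
  exact le_of_tendsto' h3 fun N => hB s hs1.le hs2 N

end ClassSums

end Fermat.Agent.ExtVan.SecondIneq
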