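import Mathlib
import Fermat.Agent.ExtVan.SecondIneq.IdealSums
import Fermat.Agent.ExtVan.SecondIneq.EulerIdealHom
import Fermat.Agent.ExtVan.SecondIneq.NormPrimes

/-!
# `∑_q N q ^ (-s) = log (1/(s-1)) + O(1)` on `(1, 2]` (S14 long shot, brick 2I-e, `χ = 1`)
-/

set_option autoImplicit false

noncomputable section

open Finset Filter Topology NumberField Ideal nonZeroDivisors IsDedekindDomain

namespace Fermat.Agent.ExtVan.SecondIneq

open Fermat.Agent.ExtVan.IdealCount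

variable (K : Type*) [Field K] [NumberField K]

/-- `I ↦ N I ^ (-s)` as a monoid hom. -/
def nrmHom (s : ℝ) : (Ideal (𝓞 K))⁰ →* ℝ where
  toFun I := nrm I ^ (-s)
  map_one' := by rw [nrm_one, Real.one_rpow]
  map_mul' I J := by rw [nrm_mul, Real.mul_rpow (nrm_pos I).le (nrm_pos J).le]

/-- the Dedekind zeta function at a real argument, as a sum over nonzero ideals. -/
def zetaK (s : ℝ) : ℝ := ∑' I : (Ideal (𝓞 K))⁰, nrm I ^ (-s)

variable {K}

lemma nrmHom_apply (s : ℝ) (I : (Ideal (𝓞 K))⁰) : nrmHom K s I = nrm I ^ (-s) := rfl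

lemma nrm_prime₀ (v : HeightOneSpectrum (𝓞 K)) : nrm (prime₀ v) = primeNorm v := rfl

lemma primeNorm_rpow_neg_le_half (v : HeightOneSpectrum (𝓞 K)) {s : ℝ} (hs : 1 ≤ s) :
    primeNorm v ^ (-s) ≤ 1 / 2 := by
  have h2 : (2 : ℝ) ≤ primeNorm v := by
    have := one_lt_absNorm v
    unfold primeNorm
    exact_mod_cast this
  calc primeNorm v ^ (-s) ≤ primeNorm v ^ (-1 : ℝ) :=
        Real.rpow_le_rpow_of_exponent_le (by linarith) (by linarith)
    _ = (primeNorm v)⁻¹ := Real.rpow_neg_one _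
    _ ≤ 1 / 2 := by
        rw [one_div]
        exact inv_anti₀ (by norm_num) h2

lemma one_le_zetaK {s : ℝ} (hs : 1 < s) : 1 ≤ zetaK K s := by
  have h := (summable_nrm_rpow (K := K) hs).sum_le_tsum {1}
    (fun I _ => Real.rpow_nonneg (nrm_pos I).le _)
  rw [Finset.sum_singleton, nrm_one, Real.one_rpow] at h
  exact h

variable (K) in
/-- **two-sided bound of the Dedekind zeta function** on `(1, 2]`. -/
theorem exists_zetaK_bounds : ∃ c C : ℝ, 0 < c ∧ 0 < C ∧ ∀ s : ℝ, 1 < s → s ≤ 2 →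
    c / (s - 1) ≤ zetaK K s ∧ zetaK K s ≤ C / (s - 1) := by
  obtain ⟨B, hB0, hB⟩ := exists_bound_dirichlet (K := K) (fun _ => (1 : ℝ))
  obtain ⟨c₀, C₀, hc₀, hC₀, hz⟩ := exists_zeta_bounds
  set h : ℝ := ∑ _C : ClassGroup (𝓞 K), (1 : ℝ) with hh
  have hpos : 0 < h := by
    rw [hh, Finset.sum_const, Finset.card_univ, nsmul_eq_mul, mul_one]
    exact_mod_cast Fintype.card_pos
  have hκ := idealDensity_pos (K := K)
  set a : ℝ := idealDensity K * h with ha
  have ha0 : 0 < a := mul_pos hκ hpos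
  refine ⟨a * c₀ / (B + 1), a * C₀ + B, by positivity, by positivity, fun s hs1 hs2 => ?_⟩
  have hs0 : 0 < s - 1 := by linarith
  have h1 := hB s hs1 hs2
  simp only [smul_eq_mul, mul_one] at h1
  rw [Real.norm_eq_abs, abs_le] at h1
  obtain ⟨hz1, hz2⟩ := hz s hs1 hs2
  have hZ : zetaK K s = ∑' I : (Ideal (𝓞 K))⁰, nrm I ^ (-s) := rfl
  rw [← hZ] at h1
  have e1 : idealDensity K * zetaR s * h = a * zetaR s := by rw [ha]; ring
  rw [e1] at h1
  constructor
  · -- lower bound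
    have h2 : a * (c₀ / (s - 1)) - B ≤ zetaK K s := by
      have := mul_le_mul_of_nonneg_left hz1 ha0.le
      linarith [h1.1]
    have h3 := one_le_zetaK (K := K) hs1
    rw [div_div, div_le_iff₀ (by positivity)]
    have h4 : a * c₀ = a * (c₀ / (s - 1)) * (s - 1) := by field_simp
    have h5 : a * (c₀ / (s - 1)) ≤ zetaK K s * (B + 1) := by nlinarith
    calc a * c₀ = a * (c₀ / (s - 1)) * (s - 1) := h4
      _ ≤ zetaK K s * (B + 1) * (s - 1) := mul_le_mul_of_nonneg_right h5 hs0.le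
      _ = zetaK K s * ((B + 1) * (s - 1)) := by ring
  · -- upper bound
    have h2 : zetaK K s ≤ a * (C₀ / (s - 1)) + B := by
      have := mul_le_mul_of_nonneg_left hz2 ha0.le
      linarith [h1.2]
    have h3 : B ≤ B / (s - 1) := by
      rw [le_div_iff₀ hs0]
      nlinarith
    calc zetaK K s ≤ a * (C₀ / (s - 1)) + B := h2
      _ ≤ a * (C₀ / (s - 1)) + B / (s - 1) := by linarith
      _ = (a * C₀ + B) / (s - 1) := by ring

/-- **Euler product of the Dedekind zeta function**, real version. -/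
theorem tendsto_prod_zetaK {s : ℝ} (hs : 1 < s) :
    Tendsto (fun S : Finset (HeightOneSpectrum (𝓞 K)) =>
      ∏ v ∈ S, (1 - primeNorm v ^ (-s))⁻¹) atTop (𝓝 (zetaK K s)) := by
  have h := tendsto_prod_one_sub_inv_ideal (nrmHom K s) (fun v => ?_) ?_
  · exact h
  · rw [nrmHom_apply, nrm_prime₀, Real.norm_of_nonneg (primeNorm_rpow_nonneg v _)]
    exact lt_of_le_of_lt (primeNorm_rpow_neg_le_half v hs.le) (by norm_num)
  · refine (summable_nrm_rpow (K := K) hs).congr fun I => ?_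
    rw [nrmHom_apply, Real.norm_of_nonneg (Real.rpow_nonneg (nrm_pos I).le _)]

/-- `exp x ≤ (1 - x)⁻¹` for `x < 1`. -/
lemma exp_le_one_sub_inv {x : ℝ} (hx : x < 1) : Real.exp x ≤ (1 - x)⁻¹ := by
  have h1 : 0 < 1 - x := by linarith
  have h2 : 1 - x ≤ Real.exp (-x) := by
    have := Real.add_one_le_exp (-x)
    linarith
  rw [Real.exp_neg] at h2
  have h3 : 0 < Real.exp x := Real.exp_pos x
  rw [le_inv_comm₀ h3 h1]
  exact h2

/-- `(1 - x)⁻¹ ≤ exp (x + 2 x²)` for `0 ≤ x ≤ 1/2`. -/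
lemma one_sub_inv_le_exp {x : ℝ} (hx0 : 0 ≤ x) (hx : x ≤ 1 / 2) :
    (1 - x)⁻¹ ≤ Real.exp (x + 2 * x ^ 2) := by
  have h1 : 0 < 1 - x := by linarith
  have h2 : x + 2 * x ^ 2 + 1 ≤ Real.exp (x + 2 * x ^ 2) := Real.add_one_le_exp _
  rw [inv_le_iff_one_le_mul₀' h1]
  have h3 : 1 ≤ (1 - x) * (x + 2 * x ^ 2 + 1) := by
    have : (1 - x) * (x + 2 * x ^ 2 + 1) = 1 + x ^ 2 * (1 - 2 * x) := by ring
    rw [this]
    have : 0 ≤ x ^ 2 * (1 - 2 * x) := mul_nonneg (sq_nonneg _) (by linarith)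
    linarith
  exact h3.trans (mul_le_mul_of_nonneg_left h2 h1.le)

variable (K) in
/-- **prime ideal sums**: `∑_q N q ^ (-s) = log (1/(s-1)) + O(1)` on `(1, 2]`. -/
theorem exists_bound_sum_primes : ∃ B : ℝ, ∀ s ∈ Set.Ioc (1 : ℝ) 2,
    |∑' q : HeightOneSpectrum (𝓞 K), primeNorm q ^ (-s) - Real.log (1 / (s - 1))| ≤ B := by
  obtain ⟨c, C, hc, hC, hz⟩ := exists_zetaK_bounds K
  refine ⟨|Real.log C| + |Real.log c| + 2 * primeZetaTwo K, fun s hs => ?_⟩
  obtain ⟨hs1, hs2⟩ := hs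
  have hs0 : 0 < s - 1 := by linarith
  obtain ⟨hz1, hz2⟩ := hz s hs1 hs2
  have hsum := summable_primeNorm_rpow K hs1
  have hsum2 := summable_primeNorm_rpow K (s := 2) (by norm_num)
  set P : ℝ := ∑' q : HeightOneSpectrum (𝓞 K), primeNorm q ^ (-s) with hP
  have hprod := tendsto_prod_zetaK (K := K) hs1
  have hzpos : 0 < zetaK K s := lt_of_lt_of_le one_pos (one_le_zetaK hs1)
  -- exp P ≤ ζ_K(s)
  have hlow : Real.exp P ≤ zetaK K s := by
    have h1 : Tendsto (fun S : Finset (HeightOneSpectrum (𝓞 K)) =>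
        Real.exp (∑ v ∈ S, primeNorm v ^ (-s))) atTop (𝓝 (Real.exp P)) :=
      (Real.continuous_exp.tendsto _).comp hsum.hasSum
    refine le_of_tendsto_of_tendsto' h1 hprod fun S => ?_
    rw [Real.exp_sum]
    refine Finset.prod_le_prod (fun v _ => (Real.exp_pos _).le) fun v _ => ?_
    exact exp_le_one_sub_inv
      (lt_of_le_of_lt (primeNorm_rpow_neg_le_half v hs1.le) (by norm_num))
  -- ζ_K(s) ≤ exp (P + 2 c₂)
  have hupp : zetaK K s ≤ Real.exp (P + 2 * primeZetaTwo K) := by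
    refine le_of_tendsto' hprod fun S => ?_
    have h1 : ∏ v ∈ S, (1 - primeNorm v ^ (-s))⁻¹ ≤
        ∏ v ∈ S, Real.exp (primeNorm v ^ (-s) + 2 * (primeNorm v ^ (-s)) ^ 2) := by
      refine Finset.prod_le_prod (fun v _ => ?_) fun v _ => ?_
      · have := primeNorm_rpow_neg_le_half v hs1.le
        exact (inv_pos.mpr (by linarith)).le
      · exact one_sub_inv_le_exp (primeNorm_rpow_nonneg v _) (primeNorm_rpow_neg_le_half v hs1.le)
    refine h1.trans ?_
    rw [← Real.exp_sum, Real.exp_le_exp, Finset.sum_add_distrib, ← Finset.mul_sum]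
    have h2 : ∑ v ∈ S, primeNorm v ^ (-s) ≤ P :=
      hsum.sum_le_tsum _ fun v _ => primeNorm_rpow_nonneg v _
    have h3 : ∑ v ∈ S, (primeNorm v ^ (-s)) ^ 2 ≤ primeZetaTwo K := by
      have h4 : ∑ v ∈ S, (primeNorm v ^ (-s)) ^ 2 ≤ ∑ v ∈ S, primeNorm v ^ (-(2 : ℝ)) := by
        refine Finset.sum_le_sum fun v _ => ?_
        rw [← Real.rpow_natCast, ← Real.rpow_mul (primeNorm_pos v).le]
        exact Real.rpow_le_rpow_of_exponent_le (one_lt_primeNorm v).le (by push_cast; linarith)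
      exact h4.trans (hsum2.sum_le_tsum _ fun v _ => primeNorm_rpow_nonneg v _)
    linarith
  -- take logs
  have hl1 : P ≤ Real.log (zetaK K s) := by
    rw [← Real.log_exp P]
    exact Real.log_le_log (Real.exp_pos _) hlow
  have hl2 : Real.log (zetaK K s) ≤ P + 2 * primeZetaTwo K := by
    rw [← Real.log_exp (P + 2 * primeZetaTwo K)]
    exact Real.log_le_log hzpos hupp
  have hl3 : Real.log (zetaK K s) ≤ Real.log C + Real.log (1 / (s - 1)) := by
    rw [← Real.log_mul hC.ne' (by positivity)]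
    refine Real.log_le_log hzpos ?_
    rw [mul_one_div]
    exact hz2
  have hl4 : Real.log c + Real.log (1 / (s - 1)) ≤ Real.log (zetaK K s) := by
    rw [← Real.log_mul hc.ne' (by positivity)]
    refine Real.log_le_log (by positivity) ?_
    rw [mul_one_div]
    exact hz1
  have hc2 : 0 ≤ primeZetaTwo K := tsum_nonneg fun v => primeNorm_rpow_nonneg v _
  rw [abs_le]
  constructor
  · have := neg_abs_le (Real.log c)
    have := abs_nonneg (Real.log C)
    linarith
  · have := le_abs_self (Real.log C)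
    have := abs_nonneg (Real.log c)
    linarith

end Fermat.Agent.ExtVan.SecondIneq
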