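/-
S14 long shot, second inequality, brick (2I-e) part 1 (helper2).

**Euler product over the prime ideals of a Dedekind domain**, for a completely multiplicative
function `f : Ideal R →*₀ F` with `∑_I ‖f I‖ < ∞`:

  `HasProd (fun v : HeightOneSpectrum R => (1 - f v.asIdeal)⁻¹) (∑' I, f I)`,

and for `F = ℂ`: `exp (∑' v, -log (1 - f v.asIdeal)) = ∑' I, f I`.

The proof follows Mathlib's `EulerProduct.eulerProduct_completely_multiplicative_hasProd` (for `ℕ`):
`factoredIdeals S` = nonzero ideals with all prime factors in the finite set `S`, the bijection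
`ℕ × factoredIdeals S ≃ factoredIdeals (insert v S)`, `(k, J) ↦ v ^ k * J`, and a tail estimate.
-/
import Mathlib

set_option autoImplicit false
set_option linter.unusedSectionVars false
set_option linter.unusedVariables false

noncomputable section

namespace Fermat.Agent.ExtVan.SecondIneq.LS

open IsDedekindDomain Finset
open scoped Classical

variable {R : Type*} [CommRing R] [IsDedekindDomain R]

/-- the nonzero ideals all of whose prime factors lie in `S`. -/
def factoredIdeals (S : Finset (HeightOneSpectrum R)) : Set (Ideal R) :=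
  {I | I ≠ ⊥ ∧ ∀ v : HeightOneSpectrum R, v.asIdeal ∣ I → v ∈ S}

lemma factoredIdeals_empty : factoredIdeals (∅ : Finset (HeightOneSpectrum R)) = {⊤} := by
  ext I
  simp only [factoredIdeals, Set.mem_ofPred_eq, Finset.notMem_empty, imp_false, Set.mem_singleton_iff]
  constructor
  · rintro ⟨h0, h⟩
    by_contra htop
    obtain ⟨M, hM, hIM⟩ := Ideal.exists_le_maximal I htop
    have hMbot : M ≠ ⊥ := fun hb => h0 (le_bot_iff.mp (hb ▸ hIM))
    exact h ⟨M, hM.isPrime, hMbot⟩ (Ideal.dvd_iff_le.mpr hIM)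
  · rintro rfl
    refine ⟨top_ne_bot, fun v hv => ?_⟩
    have := Ideal.dvd_iff_le.mp hv
    exact v.isPrime.ne_top (top_le_iff.mp this)

lemma factoredIdeals_mono {S T : Finset (HeightOneSpectrum R)} (h : S ⊆ T) :
    factoredIdeals S ⊆ factoredIdeals T := fun _ hI => ⟨hI.1, fun v hv => h (hI.2 v hv)⟩

variable {S : Finset (HeightOneSpectrum R)} {v : HeightOneSpectrum R}

lemma not_dvd_of_mem_factoredIdeals (hv : v ∉ S) {J : Ideal R} (hJ : J ∈ factoredIdeals S) :
    ¬ v.asIdeal ∣ J := fun h => hv (hJ.2 v h)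

lemma pow_mul_mem_factoredIdeals (k : ℕ) {J : Ideal R} (hJ : J ∈ factoredIdeals S) :
    v.asIdeal ^ k * J ∈ factoredIdeals (insert v S) := by
  refine ⟨mul_ne_zero (pow_ne_zero _ v.ne_bot) hJ.1, fun w hw => ?_⟩
  rcases (w.prime.dvd_mul).mp hw with h | h
  · have h1 := w.prime.dvd_of_dvd_pow h
    have h2 : w = v := by
      apply HeightOneSpectrum.ext
      have hle := Ideal.dvd_iff_le.mp h1
      exact ((v.isMaximal.eq_of_le w.isPrime.ne_top hle)).symm
    rw [h2]
    exact Finset.mem_insert_self _ _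
  · exact Finset.mem_insert_of_mem (hJ.2 w h)

/-- the map `(k, J) ↦ v ^ k * J`. -/
def powMulFactored (hv : v ∉ S) : ℕ × factoredIdeals S → factoredIdeals (insert v S) :=
  fun x => ⟨v.asIdeal ^ x.1 * x.2.1, pow_mul_mem_factoredIdeals x.1 x.2.2⟩

lemma powMulFactored_injective (hv : v ∉ S) : Function.Injective (powMulFactored hv) := by
  have key : ∀ (k k' : ℕ) (J J' : Ideal R), ¬ v.asIdeal ∣ J' → k ≤ k' →
      v.asIdeal ^ k * J = v.asIdeal ^ k' * J' → ¬ v.asIdeal ∣ J → k = k' ∧ J = J' := by
    intro k k' J J' hJ' hkk' h hJ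
    obtain ⟨d, rfl⟩ := Nat.exists_eq_add_of_le hkk'
    rw [pow_add, mul_assoc] at h
    have h2 := mul_left_cancel₀ (pow_ne_zero k v.ne_bot) h
    rcases Nat.eq_zero_or_pos d with hd | hd
    · subst hd
      simpa using h2
    · exfalso
      apply hJ
      rw [h2]
      exact Dvd.dvd.mul_right (dvd_pow_self _ hd.ne') _
  rintro ⟨k, J, hJ⟩ ⟨k', J', hJ'⟩ h
  have h' : v.asIdeal ^ k * J = v.asIdeal ^ k' * J' := congrArg Subtype.val h
  have hnJ := not_dvd_of_mem_factoredIdeals hv hJ
  have hnJ' := not_dvd_of_mem_factoredIdeals hv hJ'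
  rcases le_total k k' with hk | hk
  · obtain ⟨rfl, rfl⟩ := key k k' J J' hnJ' hk h' hnJ
    rfl
  · obtain ⟨rfl, rfl⟩ := key k' k J' J hnJ hk h'.symm hnJ'
    rfl

lemma powMulFactored_surjective (hv : v ∉ S) : Function.Surjective (powMulFactored hv) := by
  rintro ⟨I, hI0, hI⟩
  obtain ⟨k, J, hJ, hIJ⟩ := WfDvdMonoid.max_power_factor (α := Ideal R) hI0 v.irreducible
  have hJ0 : J ≠ ⊥ := by
    rintro rfl
    apply hI0
    rw [hIJ]
    simp
  refine ⟨⟨k, J, hJ0, fun w hw => ?_⟩, Subtype.ext hIJ.symm⟩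
  have h1 : w ∈ insert v S := hI w (hIJ ▸ Dvd.dvd.mul_left hw _)
  rcases Finset.mem_insert.mp h1 with rfl | h
  · exact absurd hw hJ
  · exact h

/-- `ℕ × factoredIdeals S ≃ factoredIdeals (insert v S)` for `v ∉ S`. -/
def equivProdNatFactoredIdeals (hv : v ∉ S) :
    ℕ × factoredIdeals S ≃ factoredIdeals (insert v S) :=
  Equiv.ofBijective (powMulFactored hv) ⟨powMulFactored_injective hv, powMulFactored_surjective hv⟩

@[simp] lemma equivProdNatFactoredIdeals_apply (hv : v ∉ S) (x : ℕ × factoredIdeals S) :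
    ((equivProdNatFactoredIdeals hv x : factoredIdeals (insert v S)) : Ideal R) =
      v.asIdeal ^ x.1 * x.2.1 := rfl


/-! ### The finite Euler product -/

section Sum

variable {F : Type*} [NormedField F] [CompleteSpace F] (f : Ideal R →*₀ F)

lemma map_pow_mul_factored (k : ℕ) (J : Ideal R) :
    f (v.asIdeal ^ k * J) = f v.asIdeal ^ k * f J := by
  rw [map_mul, map_pow]

/-- the finite Euler product: a product over `S` of geometric series is the sum over the
`S`-factored ideals. -/
lemma summable_and_hasSum_factoredIdeals (hlt : ∀ v : HeightOneSpectrum R, ‖f v.asIdeal‖ < 1)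
    (S : Finset (HeightOneSpectrum R)) :
    Summable (fun I : factoredIdeals S => ‖f I‖) ∧
      HasSum (fun I : factoredIdeals S => f I) (∏ v ∈ S, (1 - f v.asIdeal)⁻¹) := by
  induction S using Finset.induction with
  | empty =>
    rw [factoredIdeals_empty]
    simp only [Finset.prod_empty]
    refine ⟨(Set.finite_singleton (⊤ : Ideal R)).summable (‖f ·‖), ?_⟩
    have h1 : f (⊤ : Ideal R) = 1 := by rw [← Ideal.one_eq_top, map_one]
    have := hasSum_singleton (⊤ : Ideal R) f
    rwa [h1] at this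
  | insert v S hv ih =>
    have hgeo : HasSum (fun k : ℕ => f v.asIdeal ^ k) (1 - f v.asIdeal)⁻¹ :=
      hasSum_geometric_of_norm_lt_one (hlt v)
    have hgeoN : Summable (fun k : ℕ => ‖f v.asIdeal ^ k‖) := by
      simp only [norm_pow]
      exact summable_geometric_of_lt_one (norm_nonneg _) (hlt v)
    constructor
    · rw [← (equivProdNatFactoredIdeals hv).summable_iff]
      have : (fun I : factoredIdeals (insert v S) => ‖f I‖) ∘ (equivProdNatFactoredIdeals hv) =
          fun x : ℕ × factoredIdeals S => ‖f v.asIdeal ^ x.1‖ * ‖f x.2‖ := by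
        funext x
        simp only [Function.comp_apply, equivProdNatFactoredIdeals_apply, map_pow_mul_factored,
          norm_mul]
      rw [this]
      apply Summable.mul_of_nonneg hgeoN ih.1 <;> exact fun n ↦ norm_nonneg _
    · rw [Finset.prod_insert hv, ← (equivProdNatFactoredIdeals hv).hasSum_iff]
      have : (fun I : factoredIdeals (insert v S) => f I) ∘ (equivProdNatFactoredIdeals hv) =
          fun x : ℕ × factoredIdeals S => f v.asIdeal ^ x.1 * f x.2 := by
        funext x
        simp only [Function.comp_apply, equivProdNatFactoredIdeals_apply, map_pow_mul_factored]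
      rw [this]
      have : T3Space F := instT3Space
      apply hgeo.mul ih.2
      apply summable_mul_of_summable_norm hgeoN ih.1

variable {f}

/-- summability forces `‖f v‖ < 1` at every prime. -/
lemma norm_lt_one_of_summable (hsum : Summable fun I : Ideal R => ‖f I‖)
    (v : HeightOneSpectrum R) : ‖f v.asIdeal‖ < 1 := by
  have hinj : Function.Injective fun k : ℕ => v.asIdeal ^ k := by
    intro a b hab
    by_contra hne
    rcases Nat.lt_or_gt_of_ne hne with h | h
    · obtain ⟨d, rfl⟩ := Nat.exists_eq_add_of_lt h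
      have h1 : v.asIdeal ^ a * 1 = v.asIdeal ^ a * v.asIdeal ^ (d + 1) := by
        rw [mul_one, ← pow_add]
        exact hab.trans (by ring_nf)
      have h2 := mul_left_cancel₀ (pow_ne_zero a v.ne_bot) h1
      have h3 : v.asIdeal ∣ 1 := h2 ▸ dvd_pow_self _ (Nat.succ_ne_zero d)
      exact v.prime.not_isUnit (isUnit_of_dvd_one h3)
    · obtain ⟨d, rfl⟩ := Nat.exists_eq_add_of_lt h
      have h1 : v.asIdeal ^ b * 1 = v.asIdeal ^ b * v.asIdeal ^ (d + 1) := by
        rw [mul_one, ← pow_add]
        exact hab.symm.trans (by ring_nf)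
      have h2 := mul_left_cancel₀ (pow_ne_zero b v.ne_bot) h1
      have h3 : v.asIdeal ∣ 1 := h2 ▸ dvd_pow_self _ (Nat.succ_ne_zero d)
      exact v.prime.not_isUnit (isUnit_of_dvd_one h3)
  have h := hsum.comp_injective hinj
  simp only [Function.comp_def, map_pow, norm_pow] at h
  have h2 := summable_geometric_iff_norm_lt_one.mp h
  rwa [norm_norm] at h2

/-- every finite set of ideals is, up to `⊥`, contained in `factoredIdeals S` for all large `S`. -/
lemma exists_finset_forall_mem_factoredIdeals (T : Finset (Ideal R)) :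
    ∃ S₀ : Finset (HeightOneSpectrum R), ∀ S : Finset (HeightOneSpectrum R), S₀ ⊆ S →
      ∀ I ∈ T, I ≠ ⊥ → I ∈ factoredIdeals S := by
  refine ⟨T.biUnion fun I => if h : I = ⊥ then ∅ else (Ideal.finite_factors h).toFinset,
    fun S hS I hIT hI0 => ⟨hI0, fun v hv => hS ?_⟩⟩
  rw [Finset.mem_biUnion]
  refine ⟨I, hIT, ?_⟩
  rw [dif_neg hI0, Set.Finite.mem_toFinset]
  exact hv

/-- the sum over `factoredIdeals S` approximates the full sum for all large `S`. -/
lemma norm_tsum_sub_tsum_factoredIdeals_lt (hsum : Summable fun I : Ideal R => f I) {ε : ℝ}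
    (hε : 0 < ε) :
    ∃ S₀ : Finset (HeightOneSpectrum R), ∀ S : Finset (HeightOneSpectrum R), S₀ ⊆ S →
      ‖(∑' I : Ideal R, f I) - ∑' I : factoredIdeals S, f I‖ < ε := by
  obtain ⟨T, hT⟩ := hsum.tsum_vanishing (Metric.ball_mem_nhds 0 hε)
  obtain ⟨S₀, hS₀⟩ := exists_finset_forall_mem_factoredIdeals T
  refine ⟨S₀, fun S hS => ?_⟩
  have h1 := hT ((factoredIdeals S)ᶜ \ {⊥}) (by
    rw [Set.disjoint_left]
    rintro I ⟨hI1, hI2⟩ hIT
    exact hI1 (hS₀ S hS I hIT hI2))
  rw [mem_ball_zero_iff] at h1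
  rwa [← hsum.tsum_subtype_add_tsum_subtype_compl (factoredIdeals S), add_sub_cancel_left,
    tsum_eq_tsum_sdiff_singleton (factoredIdeals S)ᶜ (map_zero f : f ⊥ = 0)]

/-- **Euler product over the primes of a Dedekind domain** (`HasProd` form). -/
theorem eulerProduct_ideal_hasProd (hsum : Summable fun I : Ideal R => ‖f I‖) :
    HasProd (fun v : HeightOneSpectrum R => (1 - f v.asIdeal)⁻¹) (∑' I : Ideal R, f I) := by
  rw [HasProd, SummationFilter.unconditional, Metric.tendsto_atTop]
  intro ε hε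
  obtain ⟨S₀, hS₀⟩ := norm_tsum_sub_tsum_factoredIdeals_lt hsum.of_norm hε
  refine ⟨S₀, fun S hS => ?_⟩
  rw [dist_eq_norm, norm_sub_rev,
    ← (summable_and_hasSum_factoredIdeals f (norm_lt_one_of_summable hsum) S).2.tsum_eq]
  exact hS₀ S hS

theorem eulerProduct_ideal_tprod (hsum : Summable fun I : Ideal R => ‖f I‖) :
    ∏' v : HeightOneSpectrum R, (1 - f v.asIdeal)⁻¹ = ∑' I : Ideal R, f I :=
  (eulerProduct_ideal_hasProd hsum).tprod_eq

end Sum

section ExpLog

open Complex

variable {f : Ideal R →*₀ ℂ}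

/-- **Euler product, exponential form**: `exp (∑_v -log (1 - f v)) = ∑_I f I`. -/
theorem exp_tsum_primeIdeals_log_eq_tsum (hsum : Summable fun I : Ideal R => ‖f I‖) :
    exp (∑' v : HeightOneSpectrum R, -log (1 - f v.asIdeal)) = ∑' I : Ideal R, f I := by
  have hs (v : HeightOneSpectrum R) : ‖f v.asIdeal‖ < 1 := norm_lt_one_of_summable hsum v
  have hp (v : HeightOneSpectrum R) : 1 - f v.asIdeal ≠ 0 :=
    fun h => (norm_one (α := ℂ) ▸ (sub_eq_zero.mp h) ▸ hs v).false
  have hinj : Function.Injective fun v : HeightOneSpectrum R => v.asIdeal :=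
    fun v w h => HeightOneSpectrum.ext h
  have hsumv : Summable fun v : HeightOneSpectrum R => f v.asIdeal :=
    (hsum.of_norm).comp_injective hinj
  have H := hsumv.clog_one_sub.neg.hasSum.cexp.tprod_eq
  simp only [Function.comp_apply, exp_neg, exp_log (hp _)] at H
  exact H.symm.trans (eulerProduct_ideal_tprod hsum)

end ExpLog

end Fermat.Agent.ExtVan.SecondIneq.LS
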