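/-
S14 long shot, second inequality, brick (2I-e) part 2 (helper2).

`L`-series of a character `χ` of the class group of a number field `K`, for real `s > 1`:
* `summable_normPow`: `∑_I (N I) ^ (-s) < ∞` (from the finite Euler products and
  `summable_primeNorm_rpow`, no Mathlib `dedekindZeta` needed);
* `classLSeries K χ s = ∑_I χ(I) (N I) ^ (-s)`, `classLSeries_eq_exp` (Euler product),
  `classLSeries_ne_zero`;
* `abs_log_norm_classLSeries_sub_le`:
  `|log ‖L(s, χ)‖ - Re ∑_v χ(v) (N v) ^ (-s)| ≤ ∑_v (N v) ^ (-2)`.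
-/
import Mathlib
import Fermat.Agent.ExtVan.SecondIneq.EulerIdeal
import Fermat.Agent.ExtVan.SecondIneq.NormPrimes

set_option autoImplicit false
set_option linter.unusedSectionVars false

noncomputable section

namespace Fermat.Agent.ExtVan.SecondIneq.LS

open NumberField IsDedekindDomain Ideal nonZeroDivisors
open scoped Classical

variable (K : Type*) [Field K] [NumberField K]

/-- `I ↦ (N I) ^ (-s)` as a completely multiplicative function on ideals (`0` at `⊥`). -/
def normPow (s : ℝ) (hs : s ≠ 0) : Ideal (𝓞 K) →*₀ ℝ where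
  toFun I := ((Ideal.absNorm I : ℕ) : ℝ) ^ (-s)
  map_zero' := by
    show ((Ideal.absNorm (0 : Ideal (𝓞 K)) : ℕ) : ℝ) ^ (-s) = 0
    rw [Ideal.zero_eq_bot, Ideal.absNorm_bot, Nat.cast_zero, Real.zero_rpow (neg_ne_zero.mpr hs)]
  map_one' := by
    show ((Ideal.absNorm (1 : Ideal (𝓞 K)) : ℕ) : ℝ) ^ (-s) = 1
    rw [Ideal.one_eq_top, Ideal.absNorm_top, Nat.cast_one, Real.one_rpow]
  map_mul' I J := by
    show ((Ideal.absNorm (I * J) : ℕ) : ℝ) ^ (-s) = _
    rw [map_mul, Nat.cast_mul, Real.mul_rpow (Nat.cast_nonneg _) (Nat.cast_nonneg _)]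

@[simp] lemma normPow_apply (s : ℝ) (hs : s ≠ 0) (I : Ideal (𝓞 K)) :
    normPow K s hs I = ((Ideal.absNorm I : ℕ) : ℝ) ^ (-s) := rfl

lemma normPow_nonneg (s : ℝ) (hs : s ≠ 0) (I : Ideal (𝓞 K)) : 0 ≤ normPow K s hs I :=
  Real.rpow_nonneg (Nat.cast_nonneg _) _

/-- the class of an ideal composed with a character of the class group, `0` at `⊥`. -/
def classChar (χ : ClassGroup (𝓞 K) →* ℂ) : Ideal (𝓞 K) →*₀ ℂ where
  toFun I := if h : I ∈ (Ideal (𝓞 K))⁰ then χ (ClassGroup.mk0 ⟨I, h⟩) else 0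
  map_zero' := by
    rw [dif_neg]
    exact fun h => zero_notMem_nonZeroDivisors h
  map_one' := by
    rw [dif_pos (one_mem _)]
    have : (⟨1, one_mem _⟩ : (Ideal (𝓞 K))⁰) = 1 := rfl
    rw [this, map_one, map_one]
  map_mul' I J := by
    by_cases hI : I ∈ (Ideal (𝓞 K))⁰
    · by_cases hJ : J ∈ (Ideal (𝓞 K))⁰
      · rw [dif_pos hI, dif_pos hJ, dif_pos (mul_mem hI hJ)]
        have : (⟨I * J, mul_mem hI hJ⟩ : (Ideal (𝓞 K))⁰) = ⟨I, hI⟩ * ⟨J, hJ⟩ := rfl
        rw [this, map_mul, map_mul]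
      · rw [dif_neg hJ, mul_zero, dif_neg]
        intro h
        exact hJ (by
          rw [mem_nonZeroDivisors_iff_ne_zero] at h ⊢
          exact right_ne_zero_of_mul h)
    · rw [dif_neg hI, zero_mul, dif_neg]
      intro h
      exact hI (by
        rw [mem_nonZeroDivisors_iff_ne_zero] at h ⊢
        exact left_ne_zero_of_mul h)

lemma classChar_apply_of_mem (χ : ClassGroup (𝓞 K) →* ℂ) {I : Ideal (𝓞 K)}
    (h : I ∈ (Ideal (𝓞 K))⁰) : classChar K χ I = χ (ClassGroup.mk0 ⟨I, h⟩) := dif_pos h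


/-! ### Summability of `∑_I N I ^ (-s)` -/

lemma inv_one_sub_le_exp {x : ℝ} (h0 : 0 ≤ x) (h1 : x ≤ 1 / 2) : (1 - x)⁻¹ ≤ Real.exp (2 * x) := by
  have h2 : (1 - x)⁻¹ ≤ 1 + 2 * x := by
    rw [inv_le_iff_one_le_mul₀ (by linarith)]
    nlinarith
  exact h2.trans (by linarith [Real.add_one_le_exp (2 * x)])

lemma primeNorm_rpow_le_half (v : HeightOneSpectrum (𝓞 K)) {s : ℝ} (hs : 1 ≤ s) :
    primeNorm v ^ (-s) ≤ 1 / 2 := by
  have h2 : (2 : ℝ) ≤ primeNorm v := by
    have := one_lt_absNorm v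
    unfold primeNorm
    exact_mod_cast this
  calc primeNorm v ^ (-s) ≤ primeNorm v ^ (-(1 : ℝ)) :=
        Real.rpow_le_rpow_of_exponent_le (by linarith) (by linarith)
    _ = (primeNorm v)⁻¹ := Real.rpow_neg_one _
    _ ≤ 1 / 2 := by
        rw [one_div]
        exact inv_anti₀ (by norm_num) h2

/-- the finite Euler products of `∑ N I ^ (-s)` are bounded by `exp (2 ∑_v N v ^ (-s))`. -/
lemma tsum_factoredIdeals_normPow_le {s : ℝ} (hs : 1 < s)
    (S : Finset (HeightOneSpectrum (𝓞 K))) :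
    Summable (fun I : factoredIdeals S => normPow K s (by linarith) I) ∧
    ∑' I : factoredIdeals S, normPow K s (by linarith) I ≤
      Real.exp (2 * ∑' v : HeightOneSpectrum (𝓞 K), primeNorm v ^ (-s)) := by
  have hs0 : s ≠ 0 := by linarith
  have hlt : ∀ v : HeightOneSpectrum (𝓞 K), ‖normPow K s hs0 v.asIdeal‖ < 1 := by
    intro v
    rw [Real.norm_of_nonneg (normPow_nonneg K s hs0 _)]
    exact lt_of_le_of_lt (primeNorm_rpow_le_half K v hs.le) (by norm_num)
  obtain ⟨h1, h2⟩ := summable_and_hasSum_factoredIdeals (normPow K s hs0) hlt S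
  have h1' : Summable (fun I : factoredIdeals S => normPow K s hs0 I) := by
    refine h1.congr fun I => ?_
    exact Real.norm_of_nonneg (normPow_nonneg K s hs0 _)
  refine ⟨h1', ?_⟩
  rw [h2.tsum_eq]
  have hsum := summable_primeNorm_rpow K hs
  calc ∏ v ∈ S, (1 - normPow K s hs0 v.asIdeal)⁻¹
      ≤ ∏ v ∈ S, Real.exp (2 * primeNorm v ^ (-s)) := by
        refine Finset.prod_le_prod (fun v _ => ?_) (fun v _ => ?_)
        · have := primeNorm_rpow_le_half K v hs.le
          have h0 := primeNorm_rpow_nonneg v (-s)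
          rw [normPow_apply]
          exact inv_nonneg.mpr (by unfold primeNorm at this; linarith)
        · exact inv_one_sub_le_exp (primeNorm_rpow_nonneg v _) (primeNorm_rpow_le_half K v hs.le)
    _ = Real.exp (2 * ∑ v ∈ S, primeNorm v ^ (-s)) := by
        rw [← Real.exp_sum, Finset.mul_sum]
    _ ≤ Real.exp (2 * ∑' v : HeightOneSpectrum (𝓞 K), primeNorm v ^ (-s)) := by
        apply Real.exp_le_exp.mpr
        apply mul_le_mul_of_nonneg_left _ (by norm_num)
        exact hsum.sum_le_tsum S fun v _ => primeNorm_rpow_nonneg v _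

/-- **`∑_I N I ^ (-s)` converges for `s > 1`.** -/
theorem summable_normPow {s : ℝ} (hs : 1 < s) :
    Summable fun I : Ideal (𝓞 K) => normPow K s (by linarith) I := by
  have hs0 : s ≠ 0 := by linarith
  refine summable_of_sum_le (fun I => normPow_nonneg K s hs0 I)
    (c := Real.exp (2 * ∑' v : HeightOneSpectrum (𝓞 K), primeNorm v ^ (-s))) fun T => ?_
  obtain ⟨S, hS⟩ := exists_finset_forall_mem_factoredIdeals T
  obtain ⟨h1, h2⟩ := tsum_factoredIdeals_normPow_le K hs S
  refine le_trans ?_ h2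
  rw [tsum_subtype (factoredIdeals S) fun I => normPow K s hs0 I]
  have hind : Summable ((factoredIdeals S).indicator fun I => normPow K s hs0 I) :=
    (summable_subtype_iff_indicator).mp h1
  calc ∑ I ∈ T, normPow K s hs0 I
      = ∑ I ∈ T, (factoredIdeals S).indicator (fun I => normPow K s hs0 I) I := by
        refine Finset.sum_congr rfl fun I hI => ?_
        by_cases h0 : I = ⊥
        · subst h0
          have : normPow K s hs0 ⊥ = 0 := map_zero _
          rw [this]
          by_cases hm : (⊥ : Ideal (𝓞 K)) ∈ factoredIdeals S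
          · rw [Set.indicator_of_mem hm, this]
          · rw [Set.indicator_of_notMem hm]
        · rw [Set.indicator_of_mem (hS S (Finset.Subset.refl _) I hI h0)]
    _ ≤ ∑' I, (factoredIdeals S).indicator (fun I => normPow K s hs0 I) I :=
        hind.sum_le_tsum T fun I _ => Set.indicator_nonneg (fun I _ => normPow_nonneg K s hs0 I) I


/-! ### The `L`-series of a class group character -/

lemma norm_monoidHom_eq_one {G : Type*} [Group G] [Finite G] (χ : G →* ℂ) (g : G) :
    ‖χ g‖ = 1 := by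
  have hn : 0 < orderOf g := orderOf_pos g
  have h1 : χ g ^ orderOf g = 1 := by rw [← map_pow, pow_orderOf_eq_one, map_one]
  have h2 : ‖χ g‖ ^ orderOf g = 1 := by rw [← norm_pow, h1, norm_one]
  exact (pow_eq_one_iff_of_nonneg (norm_nonneg _) hn.ne').mp h2

variable (χ : ClassGroup (𝓞 K) →* ℂ)

lemma norm_classChar_le_one (I : Ideal (𝓞 K)) : ‖classChar K χ I‖ ≤ 1 := by
  by_cases h : I ∈ (Ideal (𝓞 K))⁰
  · rw [classChar_apply_of_mem K χ h, norm_monoidHom_eq_one]
  · have : classChar K χ I = 0 := dif_neg h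
    rw [this, norm_zero]
    exact zero_le_one

lemma norm_classChar_prime (v : HeightOneSpectrum (𝓞 K)) : ‖classChar K χ v.asIdeal‖ = 1 := by
  have h : v.asIdeal ∈ (Ideal (𝓞 K))⁰ := by
    rw [mem_nonZeroDivisors_iff_ne_zero]
    exact v.ne_bot
  rw [classChar_apply_of_mem K χ h, norm_monoidHom_eq_one]

/-- the completely multiplicative function `I ↦ χ(I) (N I) ^ (-s)`. -/
def chiNormPow (s : ℝ) (hs : s ≠ 0) : Ideal (𝓞 K) →*₀ ℂ :=
  classChar K χ * (Complex.ofRealHom : ℝ →+* ℂ).toMonoidWithZeroHom.comp (normPow K s hs)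

lemma chiNormPow_apply (s : ℝ) (hs : s ≠ 0) (I : Ideal (𝓞 K)) :
    chiNormPow K χ s hs I = classChar K χ I * ((normPow K s hs I : ℝ) : ℂ) := rfl

lemma norm_chiNormPow_le (s : ℝ) (hs : s ≠ 0) (I : Ideal (𝓞 K)) :
    ‖chiNormPow K χ s hs I‖ ≤ normPow K s hs I := by
  rw [chiNormPow_apply, norm_mul, Complex.norm_real, Real.norm_of_nonneg (normPow_nonneg K s hs I)]
  exact mul_le_of_le_one_left (normPow_nonneg K s hs I) (norm_classChar_le_one K χ I)

lemma norm_chiNormPow_prime (s : ℝ) (hs : s ≠ 0) (v : HeightOneSpectrum (𝓞 K)) :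
    ‖chiNormPow K χ s hs v.asIdeal‖ = primeNorm v ^ (-s) := by
  rw [chiNormPow_apply, norm_mul, Complex.norm_real, Real.norm_of_nonneg (normPow_nonneg K s hs _),
    norm_classChar_prime, one_mul]
  rfl

lemma summable_norm_chiNormPow {s : ℝ} (hs : 1 < s) :
    Summable fun I : Ideal (𝓞 K) => ‖chiNormPow K χ s (by linarith) I‖ :=
  Summable.of_nonneg_of_le (fun _ => norm_nonneg _) (fun I => norm_chiNormPow_le K χ s _ I)
    (summable_normPow K hs)

/-- the `L`-series `L(s, χ) = ∑_I χ(I) (N I) ^ (-s)` of a character of the class group, for real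
`s > 1` (junk value for `s = 0`). -/
def classLSeries (s : ℝ) : ℂ :=
  if hs : s = 0 then 0 else ∑' I : Ideal (𝓞 K), chiNormPow K χ s hs I

lemma classLSeries_eq {s : ℝ} (hs : s ≠ 0) :
    classLSeries K χ s = ∑' I : Ideal (𝓞 K), chiNormPow K χ s hs I := dif_neg hs

/-- the prime sum `∑_v χ(v) (N v) ^ (-s)`. -/
def classPrimeSum (s : ℝ) : ℂ :=
  ∑' v : HeightOneSpectrum (𝓞 K), classChar K χ v.asIdeal * ((primeNorm v ^ (-s) : ℝ) : ℂ)

/-- **Euler product of `L(s, χ)`, exponential form.** -/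
theorem classLSeries_eq_exp {s : ℝ} (hs : 1 < s) :
    classLSeries K χ s = Complex.exp (∑' v : HeightOneSpectrum (𝓞 K),
      -Complex.log (1 - chiNormPow K χ s (by linarith) v.asIdeal)) := by
  rw [classLSeries_eq K χ (by linarith : s ≠ 0)]
  exact (exp_tsum_primeIdeals_log_eq_tsum (summable_norm_chiNormPow K χ hs)).symm

theorem classLSeries_ne_zero {s : ℝ} (hs : 1 < s) : classLSeries K χ s ≠ 0 := by
  rw [classLSeries_eq_exp K χ hs]
  exact Complex.exp_ne_zero _


/-! ### `log ‖L(s, χ)‖` versus the prime sum -/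

lemma norm_neg_log_one_sub_sub_self_le {z : ℂ} (hz : ‖z‖ ≤ 1 / 2) :
    ‖-Complex.log (1 - z) - z‖ ≤ ‖z‖ ^ 2 := by
  have hz1 : ‖-z‖ < 1 := by rw [norm_neg]; linarith
  have h := Complex.norm_log_one_add_sub_self_le hz1
  rw [norm_neg] at h
  have h2 : Complex.log (1 + -z) - -z = -(-Complex.log (1 - z) - z) := by
    rw [← sub_eq_add_neg]
    ring
  rw [h2, norm_neg] at h
  refine h.trans ?_
  have h3 : (1 - ‖z‖)⁻¹ ≤ 2 := by
    rw [inv_le_comm₀ (by linarith) (by norm_num)]
    linarith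
  have h4 : 0 ≤ ‖z‖ ^ 2 := by positivity
  nlinarith

lemma chiNormPow_prime_eq (s : ℝ) (hs : s ≠ 0) (v : HeightOneSpectrum (𝓞 K)) :
    chiNormPow K χ s hs v.asIdeal =
      classChar K χ v.asIdeal * ((primeNorm v ^ (-s) : ℝ) : ℂ) := rfl

lemma summable_chiNormPow_prime {s : ℝ} (hs : 1 < s) :
    Summable fun v : HeightOneSpectrum (𝓞 K) => chiNormPow K χ s (by linarith) v.asIdeal := by
  have hinj : Function.Injective fun v : HeightOneSpectrum (𝓞 K) => v.asIdeal :=
    fun v w h => HeightOneSpectrum.ext h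
  exact ((summable_norm_chiNormPow K χ hs).of_norm).comp_injective hinj

/-- **(2I-e)**: `|log ‖L(s, χ)‖ - Re ∑_v χ(v) N v ^ (-s)| ≤ ∑_v N v ^ (-2)` for `s > 1`. -/
theorem abs_log_norm_classLSeries_sub_le {s : ℝ} (hs : 1 < s) :
    |Real.log ‖classLSeries K χ s‖ - (classPrimeSum K χ s).re| ≤ primeZetaTwo K := by
  have hs0 : s ≠ 0 := by linarith
  set z : HeightOneSpectrum (𝓞 K) → ℂ := fun v => chiNormPow K χ s hs0 v.asIdeal with hz
  have hzsum : Summable z := summable_chiNormPow_prime K χ hs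
  have hlogsum : Summable fun v => -Complex.log (1 - z v) := hzsum.clog_one_sub.neg
  have hznorm : ∀ v, ‖z v‖ = primeNorm v ^ (-s) := fun v => norm_chiNormPow_prime K χ s hs0 v
  have hzhalf : ∀ v, ‖z v‖ ≤ 1 / 2 := fun v => by
    rw [hznorm]
    exact primeNorm_rpow_le_half K v hs.le
  have hL : classLSeries K χ s = Complex.exp (∑' v, -Complex.log (1 - z v)) :=
    classLSeries_eq_exp K χ hs
  have hP : classPrimeSum K χ s = ∑' v, z v := rfl
  have h1 : Real.log ‖classLSeries K χ s‖ = (∑' v, -Complex.log (1 - z v)).re := by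
    rw [hL, Complex.norm_exp, Real.log_exp]
  have hsum2 : Summable fun v : HeightOneSpectrum (𝓞 K) => primeNorm v ^ (-(2 : ℝ)) :=
    summable_primeNorm_rpow K (by norm_num)
  have hbound : ∀ v, ‖-Complex.log (1 - z v) - z v‖ ≤ primeNorm v ^ (-(2 : ℝ)) := by
    intro v
    refine (norm_neg_log_one_sub_sub_self_le (hzhalf v)).trans ?_
    rw [hznorm, ← Real.rpow_natCast, ← Real.rpow_mul (primeNorm_pos v).le]
    apply Real.rpow_le_rpow_of_exponent_le (one_lt_primeNorm v).le
    push_cast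
    linarith
  have h2 : (∑' v, -Complex.log (1 - z v)) - ∑' v, z v = ∑' v, (-Complex.log (1 - z v) - z v) :=
    (hlogsum.tsum_sub hzsum).symm
  rw [h1, hP, ← Complex.sub_re, h2]
  refine (Complex.abs_re_le_norm _).trans ?_
  exact tsum_of_norm_bounded hsum2.hasSum hbound

end Fermat.Agent.ExtVan.SecondIneq.LS
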