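/-
S14 long shot, second inequality, brick (2I-e) part 3 (helper2): the trivial character.

* `idealZeta K s = ∑_I (N I) ^ (-s)` (real sum over all ideals), `dedekindZeta_ofReal`:
  it is Mathlib's `dedekindZeta K s` for real `s > 1`; `tendsto_sub_one_mul_idealZeta`;
* `exists_bounds_sub_one_mul_idealZeta`, `exists_bound_log_idealZeta`:
  `log ζ_K(s) = log (1/(s-1)) + O(1)` on `(1, 2]`;
* `exists_bound_primeSum`: `∑_v (N v) ^ (-s) = log (1/(s-1)) + O(1)` on `(1, 2]`
  (+ one-sided forms `exists_lower_bound_primeSum`, `exists_upper_bound_primeSum`).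
-/
import Mathlib
import Fermat.Agent.ExtVan.SecondIneq.ClassLSeries

set_option autoImplicit false
set_option linter.unusedSectionVars false

noncomputable section

namespace Fermat.Agent.ExtVan.SecondIneq.LS

open NumberField IsDedekindDomain Ideal nonZeroDivisors Filter Topology
open scoped Classical

variable (K : Type*) [Field K] [NumberField K]

/-- the Dedekind zeta function as a real sum over all ideals. -/
def idealZeta (s : ℝ) : ℝ := ∑' I : Ideal (𝓞 K), ((Ideal.absNorm I : ℕ) : ℝ) ^ (-s)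

lemma summable_idealZeta {s : ℝ} (hs : 1 < s) :
    Summable fun I : Ideal (𝓞 K) => ((Ideal.absNorm I : ℕ) : ℝ) ^ (-s) :=
  summable_normPow K hs

lemma hasSum_idealZeta {s : ℝ} (hs : 1 < s) :
    HasSum (fun I : Ideal (𝓞 K) => ((Ideal.absNorm I : ℕ) : ℝ) ^ (-s)) (idealZeta K s) :=
  (summable_idealZeta K hs).hasSum

/-- regrouping by the norm. -/
lemma hasSum_card_mul_rpow {s : ℝ} (hs : 1 < s) :
    HasSum (fun n : ℕ => (Nat.card {I : Ideal (𝓞 K) // Ideal.absNorm I = n} : ℝ) * (n : ℝ) ^ (-s))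
      (idealZeta K s) := by
  have h := (hasSum_idealZeta K hs).tsum_fiberwise (fun I : Ideal (𝓞 K) => Ideal.absNorm I)
  refine h.congr_fun fun n => ?_
  have hfin : Finite ((fun I : Ideal (𝓞 K) => Ideal.absNorm I) ⁻¹' {n}) :=
    (Ideal.finite_setOfPred_absNorm_eq (S := 𝓞 K) n).to_subtype
  have h1 : ∀ I : ((fun I : Ideal (𝓞 K) => Ideal.absNorm I) ⁻¹' {n}),
      ((Ideal.absNorm (I : Ideal (𝓞 K)) : ℕ) : ℝ) ^ (-s) = (n : ℝ) ^ (-s) := by
    rintro ⟨I, hI⟩
    have : Ideal.absNorm I = n := hI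
    simp only [this]
  simp_rw [h1]
  rw [tsum_const, nsmul_eq_mul]
  rfl


/-- Mathlib's Dedekind zeta function at a real `s > 1` is the real sum over ideals. -/
theorem dedekindZeta_ofReal {s : ℝ} (hs : 1 < s) :
    dedekindZeta K (s : ℂ) = ((idealZeta K s : ℝ) : ℂ) := by
  have h := Complex.hasSum_ofReal.mpr (hasSum_card_mul_rpow K hs)
  rw [dedekindZeta, LSeries]
  refine (HasSum.tsum_eq ?_)
  refine h.congr_fun fun n => ?_
  rcases Nat.eq_zero_or_pos n with rfl | hn
  · rw [LSeries.term_zero]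
    have : ((0 : ℕ) : ℝ) ^ (-s) = 0 := by
      rw [Nat.cast_zero, Real.zero_rpow]
      linarith
    rw [this, mul_zero, Complex.ofReal_zero]
  · rw [LSeries.term_of_ne_zero hn.ne']
    push_cast
    rw [Complex.ofReal_cpow (Nat.cast_nonneg n), Complex.ofReal_neg, Complex.cpow_neg,
      div_eq_mul_inv]
    simp

/-- `(s - 1) ζ_K(s) → κ` as `s → 1⁺`, for the real sum over ideals. -/
theorem tendsto_sub_one_mul_idealZeta :
    Tendsto (fun s : ℝ => (s - 1) * idealZeta K s) (𝓝[>] 1) (𝓝 (dedekindZeta_residue K)) := by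
  have h := tendsto_sub_one_mul_dedekindZeta_nhdsGT K
  have h2 : ∀ᶠ s : ℝ in 𝓝[>] 1, ((s : ℂ) - 1) * dedekindZeta K (s : ℂ) =
      (((s - 1) * idealZeta K s : ℝ) : ℂ) := by
    filter_upwards [self_mem_nhdsWithin] with s hs
    rw [dedekindZeta_ofReal K hs]
    push_cast
    ring
  have h3 := h.congr' h2
  exact (Complex.continuous_re.tendsto _).comp h3 |>.congr (fun s => by simp)


lemma one_le_idealZeta {s : ℝ} (hs : 1 < s) : 1 ≤ idealZeta K s := by
  have h := le_hasSum (hasSum_idealZeta K hs) (⊤ : Ideal (𝓞 K))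
    (fun I _ => Real.rpow_nonneg (Nat.cast_nonneg _) _)
  simpa using h

lemma idealZeta_anti {s t : ℝ} (hs : 1 < s) (hst : s ≤ t) : idealZeta K t ≤ idealZeta K s := by
  refine hasSum_le (fun I => ?_) (hasSum_idealZeta K (lt_of_lt_of_le hs hst)) (hasSum_idealZeta K hs)
  by_cases h0 : I = ⊥
  · subst h0
    rw [Ideal.absNorm_bot, Nat.cast_zero, Real.zero_rpow (by linarith), Real.zero_rpow (by linarith)]
  · have h1 : (1 : ℝ) ≤ ((Ideal.absNorm I : ℕ) : ℝ) := by
      have : Ideal.absNorm I ≠ 0 := by rwa [Ne, Ideal.absNorm_eq_zero_iff]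
      exact_mod_cast Nat.one_le_iff_ne_zero.mpr this
    exact Real.rpow_le_rpow_of_exponent_le h1 (by linarith)

/-- `(s - 1) ζ_K(s)` is bounded above and below by positive constants on `(1, 2]`. -/
theorem exists_bounds_sub_one_mul_idealZeta :
    ∃ m M : ℝ, 0 < m ∧ ∀ s ∈ Set.Ioc (1 : ℝ) 2, m ≤ (s - 1) * idealZeta K s ∧
      (s - 1) * idealZeta K s ≤ M := by
  set κ := dedekindZeta_residue K with hκ
  have hκpos : 0 < κ := dedekindZeta_residue_pos K
  have hev : ∀ᶠ s : ℝ in 𝓝[>] 1, (s - 1) * idealZeta K s ∈ Set.Icc (κ / 2) (2 * κ) :=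
    (tendsto_sub_one_mul_idealZeta K).eventually (Icc_mem_nhds (by linarith) (by linarith))
  obtain ⟨u, hu1, hu⟩ := mem_nhdsGT_iff_exists_Ioo_subset.mp hev
  have hu1' : (1 : ℝ) < u := hu1
  set δ := min (u - 1) 1 / 2 with hδ
  have hδpos : 0 < δ := by
    rw [hδ]
    have : 0 < min (u - 1) 1 := lt_min (by linarith) one_pos
    linarith
  have hδu : 1 + δ < u := by
    have : min (u - 1) 1 ≤ u - 1 := min_le_left _ _
    rw [hδ]
    linarith
  have hδ1 : δ ≤ 1 := by
    have : min (u - 1) 1 ≤ 1 := min_le_right _ _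
    rw [hδ]
    linarith
  refine ⟨min (κ / 2) δ, max (2 * κ) (idealZeta K (1 + δ)), lt_min (by linarith) hδpos,
    fun s hs => ?_⟩
  rcases lt_or_ge s (1 + δ) with hlt | hge
  · have hmem : s ∈ Set.Ioo 1 u := ⟨hs.1, by linarith⟩
    have := hu hmem
    exact ⟨(min_le_left _ _).trans this.1, this.2.trans (le_max_left _ _)⟩
  · have h1 : 1 ≤ idealZeta K s := one_le_idealZeta K hs.1
    have h2 : idealZeta K s ≤ idealZeta K (1 + δ) := idealZeta_anti K (by linarith) hge
    have hs1 : 0 < s - 1 := by linarith [hs.1]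
    have hs2 : s - 1 ≤ 1 := by linarith [hs.2]
    constructor
    · calc min (κ / 2) δ ≤ δ := min_le_right _ _
        _ ≤ (s - 1) * 1 := by linarith
        _ ≤ (s - 1) * idealZeta K s := mul_le_mul_of_nonneg_left h1 hs1.le
    · calc (s - 1) * idealZeta K s ≤ 1 * idealZeta K (1 + δ) :=
            mul_le_mul hs2 h2 (by linarith) zero_le_one
        _ = idealZeta K (1 + δ) := one_mul _
        _ ≤ _ := le_max_right _ _

/-- `log ζ_K(s) = log (1/(s-1)) + O(1)` on `(1, 2]`. -/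
theorem exists_bound_log_idealZeta :
    ∃ B : ℝ, ∀ s ∈ Set.Ioc (1 : ℝ) 2,
      |Real.log (idealZeta K s) - Real.log (1 / (s - 1))| ≤ B := by
  obtain ⟨m, M, hm, h⟩ := exists_bounds_sub_one_mul_idealZeta K
  refine ⟨max |Real.log m| |Real.log M|, fun s hs => ?_⟩
  obtain ⟨h1, h2⟩ := h s hs
  have hs1 : 0 < s - 1 := by linarith [hs.1]
  have hz : 0 < idealZeta K s := lt_of_lt_of_le one_pos (one_le_idealZeta K hs.1)
  have hlog : Real.log (idealZeta K s) - Real.log (1 / (s - 1)) =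
      Real.log ((s - 1) * idealZeta K s) := by
    rw [Real.log_mul hs1.ne' hz.ne', one_div, Real.log_inv]
    ring
  rw [hlog]
  have hpos : 0 < (s - 1) * idealZeta K s := mul_pos hs1 hz
  have hl1 : Real.log m ≤ Real.log ((s - 1) * idealZeta K s) := Real.log_le_log hm h1
  have hl2 : Real.log ((s - 1) * idealZeta K s) ≤ Real.log M := Real.log_le_log hpos h2
  rw [abs_le]
  constructor
  · have := neg_abs_le (Real.log m)
    have h3 : |Real.log m| ≤ max |Real.log m| |Real.log M| := le_max_left _ _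
    linarith
  · have := le_abs_self (Real.log M)
    have h3 : |Real.log M| ≤ max |Real.log m| |Real.log M| := le_max_right _ _
    linarith


/-! ### The trivial character: prime sums versus `log (1/(s-1))` -/

lemma classChar_one_apply (I : Ideal (𝓞 K)) (hI : I ≠ ⊥) :
    classChar K (1 : ClassGroup (𝓞 K) →* ℂ) I = 1 := by
  have h : I ∈ (Ideal (𝓞 K))⁰ := by
    rw [mem_nonZeroDivisors_iff_ne_zero]
    exact hI
  rw [classChar_apply_of_mem K _ h, MonoidHom.one_apply]

lemma chiNormPow_one_apply {s : ℝ} (hs : s ≠ 0) (I : Ideal (𝓞 K)) :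
    chiNormPow K (1 : ClassGroup (𝓞 K) →* ℂ) s hs I =
      ((((Ideal.absNorm I : ℕ) : ℝ) ^ (-s) : ℝ) : ℂ) := by
  rw [chiNormPow_apply, normPow_apply]
  by_cases hI : I = ⊥
  · subst hI
    rw [Ideal.absNorm_bot, Nat.cast_zero, Real.zero_rpow (neg_ne_zero.mpr hs), Complex.ofReal_zero,
      mul_zero]
  · rw [classChar_one_apply K I hI, one_mul]

theorem classLSeries_one {s : ℝ} (hs : 1 < s) :
    classLSeries K (1 : ClassGroup (𝓞 K) →* ℂ) s = ((idealZeta K s : ℝ) : ℂ) := by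
  have hs0 : s ≠ 0 := by linarith
  rw [classLSeries_eq K _ hs0, idealZeta, Complex.ofReal_tsum]
  exact tsum_congr fun I => chiNormPow_one_apply K hs0 I

theorem classPrimeSum_one (s : ℝ) :
    classPrimeSum K (1 : ClassGroup (𝓞 K) →* ℂ) s =
      ((∑' v : HeightOneSpectrum (𝓞 K), primeNorm v ^ (-s) : ℝ) : ℂ) := by
  rw [classPrimeSum, Complex.ofReal_tsum]
  refine tsum_congr fun v => ?_
  rw [classChar_one_apply K v.asIdeal v.ne_bot, one_mul]

/-- **(2I-e, χ = 1)**: `∑_v (N v) ^ (-s) = log (1/(s-1)) + O(1)` on `(1, 2]`. -/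
theorem exists_bound_primeSum :
    ∃ B : ℝ, ∀ s ∈ Set.Ioc (1 : ℝ) 2,
      |∑' v : HeightOneSpectrum (𝓞 K), primeNorm v ^ (-s) - Real.log (1 / (s - 1))| ≤ B := by
  obtain ⟨B, hB⟩ := exists_bound_log_idealZeta K
  refine ⟨B + primeZetaTwo K, fun s hs => ?_⟩
  have h1 := abs_log_norm_classLSeries_sub_le K (1 : ClassGroup (𝓞 K) →* ℂ) hs.1
  rw [classLSeries_one K hs.1, classPrimeSum_one, Complex.ofReal_re, Complex.norm_real,
    Real.norm_of_nonneg (le_trans zero_le_one (one_le_idealZeta K hs.1))] at h1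
  have h2 := hB s hs
  have h3 : ∑' v : HeightOneSpectrum (𝓞 K), primeNorm v ^ (-s) - Real.log (1 / (s - 1)) =
      -(Real.log (idealZeta K s) - ∑' v : HeightOneSpectrum (𝓞 K), primeNorm v ^ (-s)) +
        (Real.log (idealZeta K s) - Real.log (1 / (s - 1))) := by ring
  rw [h3]
  refine (abs_add_le _ _).trans ?_
  rw [abs_neg]
  linarith

/-- lower bound form (the hypothesis `hL` of `second_ineq_of`). -/
theorem exists_lower_bound_primeSum :
    ∃ B : ℝ, ∀ s ∈ Set.Ioc (1 : ℝ) 2,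
      Real.log (1 / (s - 1)) - B ≤ ∑' v : HeightOneSpectrum (𝓞 K), primeNorm v ^ (-s) := by
  obtain ⟨B, hB⟩ := exists_bound_primeSum K
  exact ⟨B, fun s hs => by have := abs_le.mp (hB s hs); linarith [this.1]⟩

/-- upper bound form. -/
theorem exists_upper_bound_primeSum :
    ∃ B : ℝ, ∀ s ∈ Set.Ioc (1 : ℝ) 2,
      ∑' v : HeightOneSpectrum (𝓞 K), primeNorm v ^ (-s) ≤ Real.log (1 / (s - 1)) + B := by
  obtain ⟨B, hB⟩ := exists_bound_primeSum K
  exact ⟨B, fun s hs => by have := abs_le.mp (hB s hs); linarith [this.2]⟩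

end Fermat.Agent.ExtVan.SecondIneq.LS
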