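/-
S14 long shot, second inequality, brick (2I-e) part 4 (helper2): nontrivial characters.

* `classLSeries_eq_tsum_nonZeroDivisors`: `L(s, χ) = ∑_{I ≠ 0} N I ^ (-s) • χ [I]` (the shape of
  `IdealSums.exists_bound_dirichlet`);
* `sum_monoidHom_eq_zero`: a nontrivial character of a finite group sums to `0`;
* `exists_bound_norm_classLSeries`: `‖L(s, χ)‖ ≤ B` on `(1, 2]` for `χ ≠ 1`;
* `exists_upper_bound_classPrimeSum_re`: `Re ∑_v χ(v) N v ^ (-s) ≤ B` on `(1, 2]` for `χ ≠ 1`;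
* `exists_upper_bound_classPrimeSum_one_re`: `Re ∑_v N v ^ (-s) ≤ log (1/(s-1)) + B`.
-/
import Mathlib
import Fermat.Agent.ExtVan.SecondIneq.ZetaOne
import Fermat.Agent.ExtVan.SecondIneq.IdealSums

set_option autoImplicit false
set_option linter.unusedSectionVars false

noncomputable section

namespace Fermat.Agent.ExtVan.SecondIneq.LS

open NumberField IsDedekindDomain Ideal nonZeroDivisors Filter Topology
open scoped Classical

variable (K : Type*) [Field K] [NumberField K] (χ : ClassGroup (𝓞 K) →* ℂ)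

/-- **(e1)** the `L`-series as a sum over the nonzero ideals. -/
theorem classLSeries_eq_tsum_nonZeroDivisors {s : ℝ} (hs : s ≠ 0) :
    classLSeries K χ s =
      ∑' I : (Ideal (𝓞 K))⁰, (nrm I ^ (-s)) • χ (ClassGroup.mk0 I) := by
  rw [classLSeries_eq K χ hs]
  have hsupp : Function.support (fun I : Ideal (𝓞 K) => chiNormPow K χ s hs I) ⊆
      ((Ideal (𝓞 K))⁰ : Set (Ideal (𝓞 K))) := by
    intro I hI
    by_contra h
    apply hI
    show chiNormPow K χ s hs I = 0
    have h0 : classChar K χ I = 0 := dif_neg h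
    rw [chiNormPow_apply, h0, zero_mul]
  rw [← tsum_subtype_eq_of_support_subset hsupp]
  refine tsum_congr fun I => ?_
  show chiNormPow K χ s hs (I : Ideal (𝓞 K)) = _
  rw [chiNormPow_apply, classChar_apply_of_mem K χ I.2, normPow_apply, Complex.real_smul, mul_comm]
  rfl

/-- a nontrivial character of a finite group sums to zero. -/
lemma sum_monoidHom_eq_zero {G : Type*} [Group G] [Fintype G] (ψ : G →* ℂ) (hψ : ψ ≠ 1) :
    ∑ g, ψ g = 0 := by
  obtain ⟨a, ha⟩ : ∃ a, ψ a ≠ 1 := by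
    by_contra h
    push Not at h
    exact hψ (MonoidHom.ext fun g => by rw [h g, MonoidHom.one_apply])
  have h1 : ∑ g, ψ g = ψ a * ∑ g, ψ g := by
    rw [Finset.mul_sum]
    refine (Fintype.sum_equiv (Equiv.mulLeft a) _ _ fun g => ?_).symm
    rw [Equiv.coe_mulLeft, map_mul]
  have h2 : (1 - ψ a) * ∑ g, ψ g = 0 := by rw [sub_mul, one_mul, ← h1, sub_self]
  rcases mul_eq_zero.mp h2 with h | h
  · exact absurd (sub_eq_zero.mp h).symm ha
  · exact h

/-- **`L(s, χ)` is bounded on `(1, 2]` for a nontrivial character `χ`.** -/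
theorem exists_bound_norm_classLSeries (hχ : χ ≠ 1) :
    ∃ B : ℝ, 0 < B ∧ ∀ s ∈ Set.Ioc (1 : ℝ) 2, ‖classLSeries K χ s‖ ≤ B := by
  obtain ⟨B, hB0, hB⟩ := exists_bound_dirichlet (K := K) (fun C => χ C)
  refine ⟨B + 1, by linarith, fun s hs => ?_⟩
  have h := hB s hs.1 hs.2
  have hsum : ∑ C : ClassGroup (𝓞 K), χ C = 0 := by
    convert sum_monoidHom_eq_zero χ hχ
  rw [hsum, smul_zero, sub_zero,
    ← classLSeries_eq_tsum_nonZeroDivisors K χ (by linarith [hs.1])] at h
  linarith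

/-- **`Re ∑_v χ(v) N v ^ (-s)` is bounded above on `(1, 2]` for a nontrivial character `χ`.** -/
theorem exists_upper_bound_classPrimeSum_re (hχ : χ ≠ 1) :
    ∃ B : ℝ, ∀ s ∈ Set.Ioc (1 : ℝ) 2, (classPrimeSum K χ s).re ≤ B := by
  obtain ⟨B, hB0, hB⟩ := exists_bound_norm_classLSeries K χ hχ
  refine ⟨Real.log B + primeZetaTwo K, fun s hs => ?_⟩
  have h1 := abs_log_norm_classLSeries_sub_le K χ hs.1
  have h2 := (abs_le.mp h1).1
  have hpos : 0 < ‖classLSeries K χ s‖ := norm_pos_iff.mpr (classLSeries_ne_zero K χ hs.1)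
  have h3 : Real.log ‖classLSeries K χ s‖ ≤ Real.log B := Real.log_le_log hpos (hB s hs)
  linarith

/-- the trivial character: `Re ∑_v N v ^ (-s) ≤ log (1/(s-1)) + B` on `(1, 2]`. -/
theorem exists_upper_bound_classPrimeSum_one_re :
    ∃ B : ℝ, ∀ s ∈ Set.Ioc (1 : ℝ) 2,
      (classPrimeSum K (1 : ClassGroup (𝓞 K) →* ℂ) s).re ≤ Real.log (1 / (s - 1)) + B := by
  obtain ⟨B, hB⟩ := exists_upper_bound_primeSum K
  exact ⟨B, fun s hs => by rw [classPrimeSum_one, Complex.ofReal_re]; exact hB s hs⟩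

end Fermat.Agent.ExtVan.SecondIneq.LS
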