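/-
S14 long shot, second inequality, brick (2I-g) (helper2).

The norm subgroup `normClassSubgroup F L ≤ ClassGroup (𝓞 F)` of an extension `L/F` of number fields,
and the reduction of the second inequality `[Cl_F : N Cl_L] ≤ [L:F]` to the two analytic inputs
* (2I-e, χ = 1) for `L`: `∑_P N P ^ (-s) ≥ log (1/(s-1)) - B` on `(1, 2]`;
* (2I-f) for `F`: a subgroup `H` of the class group containing the classes of a set `T` of primes of
  mass `≥ (1/n) log (1/(s-1)) - B` has index `≤ n`.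
-/
import Mathlib
import Fermat.Agent.ExtVan.SecondIneq.NormPrimes

set_option autoImplicit false

noncomputable section

namespace Fermat.Agent.ExtVan.SecondIneq

open NumberField IsDedekindDomain Ideal nonZeroDivisors

variable (F L : Type*) [Field F] [NumberField F] [Field L] [NumberField L] [Algebra F L]

variable {F L} in
lemma relNorm_mem_nonZeroDivisors (A : (Ideal (𝓞 L))⁰) :
    Ideal.relNorm (𝓞 F) (A : Ideal (𝓞 L)) ∈ (Ideal (𝓞 F))⁰ := by
  rw [mem_nonZeroDivisors_iff_ne_zero, Ne, Ideal.zero_eq_bot, Ideal.relNorm_eq_bot_iff,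
    ← Ideal.zero_eq_bot]
  exact nonZeroDivisors.ne_zero A.2

/-- the relative norm on nonzero ideals. -/
def relNorm0 (A : (Ideal (𝓞 L))⁰) : (Ideal (𝓞 F))⁰ :=
  ⟨Ideal.relNorm (𝓞 F) (A : Ideal (𝓞 L)), relNorm_mem_nonZeroDivisors A⟩

/-- the subgroup of the class group of `F` generated by the classes of relative norms of nonzero
ideals of `L`. -/
def normClassSubgroup : Subgroup (ClassGroup (𝓞 F)) :=
  Subgroup.closure {c | ∃ A : (Ideal (𝓞 L))⁰, c = ClassGroup.mk0 (relNorm0 F L A)}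

lemma mk0_relNorm0_mem (A : (Ideal (𝓞 L))⁰) :
    ClassGroup.mk0 (relNorm0 F L A) ∈ normClassSubgroup F L :=
  Subgroup.subset_closure ⟨A, rfl⟩

/-- a height one prime, as a nonzero ideal. -/
def primeIdeal0 {R : Type*} [CommRing R] [IsDedekindDomain R] (q : HeightOneSpectrum R) :
    (Ideal R)⁰ :=
  ⟨q.asIdeal, by
    rw [mem_nonZeroDivisors_iff_ne_zero, Ne, Ideal.zero_eq_bot]
    exact q.ne_bot⟩

@[simp] lemma coe_primeIdeal0 {R : Type*} [CommRing R] [IsDedekindDomain R]
    (q : HeightOneSpectrum R) : ((primeIdeal0 q : (Ideal R)⁰) : Ideal R) = q.asIdeal := rfl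

/-- the class of a prime of `F` which is the norm of a prime of `L` lies in the norm subgroup. -/
lemma mk0_mem_normClassSubgroup_of_mem_degOneBelow {q : HeightOneSpectrum (𝓞 F)}
    (hq : q ∈ degOneBelow F L) :
    ClassGroup.mk0 (primeIdeal0 q) ∈ normClassSubgroup F L := by
  obtain ⟨P, hP⟩ := hq
  have h : primeIdeal0 q = relNorm0 F L (primeIdeal0 P) := by
    apply Subtype.ext
    show q.asIdeal = Ideal.relNorm (𝓞 F) P.asIdeal
    exact hP.symm
  rw [h]
  exact mk0_relNorm0_mem F L _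

/-- **Second inequality, reduced to the analytic inputs (2I-e, χ = 1) and (2I-f).** -/
theorem second_ineq_of
    (hL : ∃ B : ℝ, ∀ s ∈ Set.Ioc (1 : ℝ) 2,
      Real.log (1 / (s - 1)) - B ≤ ∑' P : HeightOneSpectrum (𝓞 L), primeNorm P ^ (-s))
    (hF : ∀ (H : Subgroup (ClassGroup (𝓞 F))) (T : Set (HeightOneSpectrum (𝓞 F))),
      (∀ q ∈ T, ClassGroup.mk0 (primeIdeal0 q) ∈ H) → ∀ n : ℕ, 0 < n →
      (∃ B : ℝ, ∀ s ∈ Set.Ioc (1 : ℝ) 2,
        (1 / (n : ℝ)) * Real.log (1 / (s - 1)) - B ≤ ∑' q : T, primeNorm q.1 ^ (-s)) →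
      H.index ≤ n) :
    (normClassSubgroup F L).index ≤ Module.finrank F L :=
  hF (normClassSubgroup F L) (degOneBelow F L)
    (fun _ hq => mk0_mem_normClassSubgroup_of_mem_degOneBelow F L hq) (Module.finrank F L)
    Module.finrank_pos (exists_bound_degOneBelow F L hL)

end Fermat.Agent.ExtVan.SecondIneq
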