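/-
S14 long shot, second inequality, brick (2I-f) (helper2): the index bound.

* `sum_unitsChar_apply`: orthogonality `∑_ψ ψ x = #Q · 1_{x = 1}` for the characters of a finite
  commutative group `Q`;
* `liftChar K H ψ`: the character of the class group attached to a character `ψ` of `Cl ⧸ H`;
* `sum_classPrimeSum_re`: `∑_ψ Re ∑_v χ_ψ(v) N v ^ (-s) = [Cl : H] ∑_{[v] ∈ H} N v ^ (-s)`;
* `index_le_of_primes`: if a set `T` of primes with classes in `H` has mass
  `≥ (1/n) log (1/(s-1)) - B` on `(1, 2]` then `[Cl : H] ≤ n`;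
* `second_ineq`: `[Cl_F : N Cl_L] ≤ [L : F]` for every extension `L/F` of number fields.
-/
import Mathlib
import Fermat.Agent.ExtVan.SecondIneq.CharBound
import Fermat.Agent.ExtVan.SecondIneq.NormClass

set_option autoImplicit false
set_option linter.unusedSectionVars false

noncomputable section

namespace Fermat.Agent.ExtVan.SecondIneq.LS

open NumberField IsDedekindDomain Ideal nonZeroDivisors Filter Topology
open scoped Classical

section Orthogonality

variable {Q : Type*} [CommGroup Q] [Finite Q]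

lemma hasEnoughRootsOfUnity_complex : HasEnoughRootsOfUnity ℂ (Monoid.exponent Q) := by
  have : NeZero (Monoid.exponent Q) := ⟨Monoid.exponent_ne_zero_of_finite⟩
  infer_instance

/-- orthogonality of the characters of a finite commutative group. -/
lemma sum_unitsChar_apply [Fintype (Q →* ℂˣ)] (x : Q) :
    ∑ ψ : Q →* ℂˣ, ((ψ x : ℂˣ) : ℂ) = if x = 1 then (Nat.card Q : ℂ) else 0 := by
  have := hasEnoughRootsOfUnity_complex (Q := Q)
  split_ifs with hx
  · subst hx
    simp only [map_one, Units.val_one, Finset.sum_const, Finset.card_univ, nsmul_eq_mul, mul_one]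
    rw [← CommGroup.card_monoidHom_of_hasEnoughRootsOfUnity Q ℂ, Nat.card_eq_fintype_card]
  · obtain ⟨φ, hφ⟩ := CommGroup.exists_apply_ne_one_of_hasEnoughRootsOfUnity Q ℂ hx
    have h1 : ∑ ψ : Q →* ℂˣ, ((ψ x : ℂˣ) : ℂ) =
        ((φ x : ℂˣ) : ℂ) * ∑ ψ : Q →* ℂˣ, ((ψ x : ℂˣ) : ℂ) := by
      rw [Finset.mul_sum]
      refine (Fintype.sum_equiv (Equiv.mulLeft φ) _ _ fun ψ => ?_).symm
      rw [Equiv.coe_mulLeft, MonoidHom.mul_apply, Units.val_mul]
    have h2 : (1 - ((φ x : ℂˣ) : ℂ)) * ∑ ψ : Q →* ℂˣ, ((ψ x : ℂˣ) : ℂ) = 0 := by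
      rw [sub_mul, one_mul, ← h1, sub_self]
    rcases mul_eq_zero.mp h2 with h | h
    · exfalso
      apply hφ
      apply Units.ext
      rw [Units.val_one]
      exact (sub_eq_zero.mp h).symm
    · exact h

end Orthogonality

variable (K : Type*) [Field K] [NumberField K] (H : Subgroup (ClassGroup (𝓞 K)))

/-- the character of the class group attached to a character of its quotient by `H`. -/
def liftChar (ψ : (ClassGroup (𝓞 K) ⧸ H) →* ℂˣ) : ClassGroup (𝓞 K) →* ℂ :=
  (Units.coeHom ℂ).comp (ψ.comp (QuotientGroup.mk' H))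

lemma liftChar_apply (ψ : (ClassGroup (𝓞 K) ⧸ H) →* ℂˣ) (c : ClassGroup (𝓞 K)) :
    liftChar K H ψ c = ((ψ (c : ClassGroup (𝓞 K) ⧸ H) : ℂˣ) : ℂ) := rfl

lemma liftChar_one : liftChar K H 1 = 1 := by
  refine MonoidHom.ext fun c => ?_
  rw [liftChar_apply, MonoidHom.one_apply, MonoidHom.one_apply, Units.val_one]

lemma liftChar_ne_one {ψ : (ClassGroup (𝓞 K) ⧸ H) →* ℂˣ} (hψ : ψ ≠ 1) : liftChar K H ψ ≠ 1 := by
  intro h
  apply hψ
  refine MonoidHom.ext fun q => ?_
  obtain ⟨c, rfl⟩ := QuotientGroup.mk_surjective q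
  have h1 := DFunLike.congr_fun h c
  rw [liftChar_apply, MonoidHom.one_apply] at h1
  apply Units.ext
  rw [MonoidHom.one_apply, Units.val_one]
  exact h1

lemma classChar_liftChar_prime (ψ : (ClassGroup (𝓞 K) ⧸ H) →* ℂˣ) (v : HeightOneSpectrum (𝓞 K)) :
    classChar K (liftChar K H ψ) v.asIdeal =
      ((ψ ((ClassGroup.mk0 (primeIdeal0 v) : ClassGroup (𝓞 K)) : ClassGroup (𝓞 K) ⧸ H) : ℂˣ) : ℂ) := by
  have h : v.asIdeal ∈ (Ideal (𝓞 K))⁰ := (primeIdeal0 v).2
  rw [classChar_apply_of_mem K _ h]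
  rfl

/-- the primes whose class lies in `H`. -/
def primesIn : Set (HeightOneSpectrum (𝓞 K)) := {v | ClassGroup.mk0 (primeIdeal0 v) ∈ H}

/-- **orthogonality for prime sums**. -/
theorem sum_classPrimeSum_re [Fintype ((ClassGroup (𝓞 K) ⧸ H) →* ℂˣ)] {s : ℝ} (hs : 1 < s) :
    ∑ ψ : (ClassGroup (𝓞 K) ⧸ H) →* ℂˣ, (classPrimeSum K (liftChar K H ψ) s).re =
      (H.index : ℝ) * ∑' v : HeightOneSpectrum (𝓞 K),
        (primesIn K H).indicator (fun v => primeNorm v ^ (-s)) v := by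
  have hs0 : s ≠ 0 := by linarith
  rw [← Complex.re_sum]
  have hsum : ∀ ψ : (ClassGroup (𝓞 K) ⧸ H) →* ℂˣ, Summable fun v : HeightOneSpectrum (𝓞 K) =>
      classChar K (liftChar K H ψ) v.asIdeal * ((primeNorm v ^ (-s) : ℝ) : ℂ) :=
    fun ψ => summable_chiNormPow_prime K (liftChar K H ψ) hs
  have h1 : ∑ ψ : (ClassGroup (𝓞 K) ⧸ H) →* ℂˣ, classPrimeSum K (liftChar K H ψ) s =
      ∑' v : HeightOneSpectrum (𝓞 K), ∑ ψ : (ClassGroup (𝓞 K) ⧸ H) →* ℂˣ,
        classChar K (liftChar K H ψ) v.asIdeal * ((primeNorm v ^ (-s) : ℝ) : ℂ) :=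
    (Summable.tsum_finsetSum fun ψ _ => hsum ψ).symm
  have h2 : ∀ v : HeightOneSpectrum (𝓞 K), ∑ ψ : (ClassGroup (𝓞 K) ⧸ H) →* ℂˣ,
      classChar K (liftChar K H ψ) v.asIdeal * ((primeNorm v ^ (-s) : ℝ) : ℂ) =
      (((H.index : ℝ) * (primesIn K H).indicator (fun v => primeNorm v ^ (-s)) v : ℝ) : ℂ) := by
    intro v
    rw [← Finset.sum_mul]
    simp_rw [classChar_liftChar_prime]
    rw [sum_unitsChar_apply, QuotientGroup.eq_one_iff, ← Subgroup.index_eq_card]
    by_cases hv : ClassGroup.mk0 (primeIdeal0 v) ∈ H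
    · rw [if_pos hv, Set.indicator_of_mem (show v ∈ primesIn K H from hv)]
      push_cast
      rfl
    · rw [if_neg hv, Set.indicator_of_notMem (show v ∉ primesIn K H from hv), zero_mul, mul_zero,
        Complex.ofReal_zero]
  rw [h1]
  simp_rw [h2]
  rw [← Complex.ofReal_tsum, Complex.ofReal_re, tsum_mul_left]

/-- **(2I-f)**: a subgroup `H` of the class group containing the classes of a set `T` of primes of
mass at least `(1/n) log (1/(s-1)) - B` on `(1, 2]` has index at most `n`. -/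
theorem index_le_of_primes (T : Set (HeightOneSpectrum (𝓞 K)))
    (hT : ∀ q ∈ T, ClassGroup.mk0 (primeIdeal0 q) ∈ H) (n : ℕ) (hn : 0 < n)
    (hsum : ∃ B : ℝ, ∀ s ∈ Set.Ioc (1 : ℝ) 2,
      (1 / (n : ℝ)) * Real.log (1 / (s - 1)) - B ≤ ∑' q : T, primeNorm q.1 ^ (-s)) :
    H.index ≤ n := by
  have : Fintype ((ClassGroup (𝓞 K) ⧸ H) →* ℂˣ) := Fintype.ofFinite _
  obtain ⟨B₀, hB₀⟩ := hsum
  -- upper bounds, character by character
  have hup : ∀ ψ : (ClassGroup (𝓞 K) ⧸ H) →* ℂˣ, ∃ B : ℝ, ∀ s ∈ Set.Ioc (1 : ℝ) 2,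
      (classPrimeSum K (liftChar K H ψ) s).re ≤
        (if ψ = 1 then Real.log (1 / (s - 1)) else 0) + B := by
    intro ψ
    by_cases hψ : ψ = 1
    · subst hψ
      obtain ⟨B, hB⟩ := exists_upper_bound_classPrimeSum_one_re K
      refine ⟨B, fun s hs => ?_⟩
      rw [if_pos rfl, liftChar_one]
      exact hB s hs
    · obtain ⟨B, hB⟩ := exists_upper_bound_classPrimeSum_re K _ (liftChar_ne_one K H hψ)
      refine ⟨B, fun s hs => ?_⟩
      rw [if_neg hψ, zero_add]
      exact hB s hs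
  choose B hB using hup
  set B' : ℝ := ∑ ψ, B ψ with hB'
  -- the key inequality
  have hkey : ∀ s ∈ Set.Ioc (1 : ℝ) 2,
      (H.index : ℝ) * ((1 / (n : ℝ)) * Real.log (1 / (s - 1)) - B₀) ≤
        Real.log (1 / (s - 1)) + B' := by
    intro s hs
    have h1 := sum_classPrimeSum_re K H hs.1
    have h2 : ∑ ψ : (ClassGroup (𝓞 K) ⧸ H) →* ℂˣ, (classPrimeSum K (liftChar K H ψ) s).re ≤
        Real.log (1 / (s - 1)) + B' := by
      calc ∑ ψ : (ClassGroup (𝓞 K) ⧸ H) →* ℂˣ, (classPrimeSum K (liftChar K H ψ) s).re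
          ≤ ∑ ψ : (ClassGroup (𝓞 K) ⧸ H) →* ℂˣ,
              ((if ψ = 1 then Real.log (1 / (s - 1)) else 0) + B ψ) :=
            Finset.sum_le_sum fun ψ _ => hB ψ s hs
        _ = Real.log (1 / (s - 1)) + B' := by
            rw [Finset.sum_add_distrib, Finset.sum_ite_eq' Finset.univ
              (1 : (ClassGroup (𝓞 K) ⧸ H) →* ℂˣ), if_pos (Finset.mem_univ _)]
    have hsummable : Summable fun v : HeightOneSpectrum (𝓞 K) => primeNorm v ^ (-s) :=
      summable_primeNorm_rpow K hs.1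
    have h3 : ∑' q : T, primeNorm q.1 ^ (-s) ≤ ∑' v : HeightOneSpectrum (𝓞 K),
        (primesIn K H).indicator (fun v => primeNorm v ^ (-s)) v := by
      rw [tsum_subtype T fun v => primeNorm v ^ (-s)]
      refine Summable.tsum_le_tsum (fun v => ?_) (hsummable.indicator T)
        (hsummable.indicator (primesIn K H))
      by_cases hv : v ∈ T
      · rw [Set.indicator_of_mem hv, Set.indicator_of_mem (show v ∈ primesIn K H from hT v hv)]
      · rw [Set.indicator_of_notMem hv]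
        exact Set.indicator_nonneg (fun v _ => primeNorm_rpow_nonneg v _) v
    have h4 : (0 : ℝ) ≤ (H.index : ℝ) := Nat.cast_nonneg _
    calc (H.index : ℝ) * ((1 / (n : ℝ)) * Real.log (1 / (s - 1)) - B₀)
        ≤ (H.index : ℝ) * ∑' q : T, primeNorm q.1 ^ (-s) :=
          mul_le_mul_of_nonneg_left (hB₀ s hs) h4
      _ ≤ (H.index : ℝ) * ∑' v : HeightOneSpectrum (𝓞 K),
            (primesIn K H).indicator (fun v => primeNorm v ^ (-s)) v :=
          mul_le_mul_of_nonneg_left h3 h4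
      _ = ∑ ψ : (ClassGroup (𝓞 K) ⧸ H) →* ℂˣ, (classPrimeSum K (liftChar K H ψ) s).re := h1.symm
      _ ≤ Real.log (1 / (s - 1)) + B' := h2
  -- let `s → 1`
  by_contra hlt
  push Not at hlt
  have hn0 : (0 : ℝ) < (n : ℝ) := by exact_mod_cast hn
  have hh : (n : ℝ) + 1 ≤ (H.index : ℝ) := by exact_mod_cast hlt
  set C : ℝ := B' + (H.index : ℝ) * B₀ with hC
  set x : ℝ := (n : ℝ) * (|C| + 1) with hx
  have hx0 : 0 ≤ x := by positivity
  have hs : (1 + Real.exp (-x)) ∈ Set.Ioc (1 : ℝ) 2 := by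
    constructor
    · linarith [Real.exp_pos (-x)]
    · have : Real.exp (-x) ≤ 1 := Real.exp_le_one_iff.mpr (by linarith)
      linarith
  have hlog : Real.log (1 / (1 + Real.exp (-x) - 1)) = x := by
    rw [add_sub_cancel_left, one_div, ← Real.exp_neg, neg_neg, Real.log_exp]
  have h := hkey _ hs
  rw [hlog] at h
  have h5 : (H.index : ℝ) * ((1 / (n : ℝ)) * x) ≤ x + C := by
    rw [hC]
    linarith
  have h6 : (1 / (n : ℝ)) * x = |C| + 1 := by
    rw [hx]
    field_simp
  rw [h6] at h5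
  have h7 : ((n : ℝ) + 1) * (|C| + 1) ≤ (H.index : ℝ) * (|C| + 1) :=
    mul_le_mul_of_nonneg_right hh (by positivity)
  have h8 : C ≤ |C| := le_abs_self C
  rw [hx] at h5
  nlinarith

end Fermat.Agent.ExtVan.SecondIneq.LS

namespace Fermat.Agent.ExtVan.SecondIneq

open NumberField

/-- **The second inequality of class field theory** (ideal-theoretic, unramified form):
`[Cl_F : N_{L/F} Cl_L] ≤ [L : F]` for every extension `L/F` of number fields. -/
theorem second_ineq (F L : Type*) [Field F] [NumberField F] [Field L] [NumberField L]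
    [Algebra F L] : (normClassSubgroup F L).index ≤ Module.finrank F L :=
  second_ineq_of F L (LS.exists_lower_bound_primeSum L)
    (fun H T hT n hn hsum => LS.index_le_of_primes F H T hT n hn hsum)

end Fermat.Agent.ExtVan.SecondIneq
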